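import Mathlib

/-!
# RR-lite, part 2: additivity of the Euler characteristic of a pair of subspaces

For subspaces `M, N` of a `K`-vector space `V` put `h⁰ = dim (M ⊓ N)`, `h¹ = dim V ⧸ (M ⊔ N)`.
If `M ≤ M₂` then `h⁰(M₂,N) + h¹(M,N) = h⁰(M,N) + h¹(M₂,N) + dim (M₂/M)`.
-/

set_option autoImplicit false

namespace Fermat.Agent.S20.RRLite

open Module

noncomputable section

variable {K V : Type*} [Field K] [AddCommGroup V] [Module K V]

/-- The relative dimension `dim_K (M₂ / M)` (meaningful for `M ≤ M₂`). -/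
def relDim (M M₂ : Submodule K V) : ℕ := finrank K (↥M₂ ⧸ M.submoduleOf M₂)

theorem mem_submoduleOf_iff {M M₂ : Submodule K V} {x : M₂} :
    x ∈ M.submoduleOf M₂ ↔ (x : V) ∈ M := Iff.rfl

theorem relDim_eq_of_surjective {W : Type*} [AddCommGroup W] [Module K W]
    (M M₂ : Submodule K V) (ψ : ↥M₂ →ₗ[K] W) (hs : Function.Surjective ψ)
    (hk : ∀ f : M₂, ψ f = 0 ↔ (f : V) ∈ M) : relDim M M₂ = finrank K W := by
  have hker : M.submoduleOf M₂ = LinearMap.ker ψ := by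
    ext f
    rw [LinearMap.mem_ker, hk, mem_submoduleOf_iff]
  rw [relDim, hker]
  exact (ψ.quotKerEquivOfSurjective hs).finrank_eq

theorem relDim_le_of_injective {W : Type*} [AddCommGroup W] [Module K W]
    (M M₂ : Submodule K V) [Module.Finite K (↥M₂ ⧸ M.submoduleOf M₂)]
    (ψ : W →ₗ[K] ↥M₂) (hk : ∀ w : W, ((ψ w : M₂) : V) ∈ M → w = 0) :
    finrank K W ≤ relDim M M₂ := by
  apply LinearMap.finrank_le_finrank_of_injective (f := (M.submoduleOf M₂).mkQ ∘ₗ ψ)
  rw [← LinearMap.ker_eq_bot, LinearMap.ker_eq_bot']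
  intro w hw
  apply hk
  rw [LinearMap.comp_apply, Submodule.mkQ_apply, Submodule.Quotient.mk_eq_zero] at hw
  exact hw

/-- Additivity of the Euler characteristic in the first variable. -/
theorem chi_add (M M₂ N : Submodule K V) (hM : M ≤ M₂)
    [Module.Finite K ↥(M₂ ⊓ N)] [Module.Finite K (V ⧸ (M ⊔ N))] :
    Module.Finite K (↥M₂ ⧸ M.submoduleOf M₂) ∧
    finrank K ↥(M₂ ⊓ N) + finrank K (V ⧸ (M ⊔ N)) =
      finrank K ↥(M ⊓ N) + finrank K (V ⧸ (M₂ ⊔ N)) + relDim M M₂ := by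
  have hW : M ⊔ N ≤ M₂ ⊔ N := sup_le_sup_right hM N
  -- the map `M₂/M → V/(M+N)`
  let θ : (↥M₂ ⧸ M.submoduleOf M₂) →ₗ[K] V ⧸ (M ⊔ N) :=
    (M.submoduleOf M₂).liftQ ((M ⊔ N).mkQ ∘ₗ M₂.subtype) (by
      intro x hx
      rw [LinearMap.mem_ker, LinearMap.comp_apply, Submodule.mkQ_apply,
        Submodule.Quotient.mk_eq_zero]
      exact Submodule.mem_sup_left hx)
  have hθ : ∀ x : M₂, θ ((M.submoduleOf M₂).mkQ x) = (M ⊔ N).mkQ (x : V) := fun x => rfl
  -- the map `M₂ ∩ N → M₂/M`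
  let μ : ↥(M₂ ⊓ N) →ₗ[K] (↥M₂ ⧸ M.submoduleOf M₂) :=
    (M.submoduleOf M₂).mkQ ∘ₗ Submodule.inclusion inf_le_left
  have hμ0 : ∀ x : ↥(M₂ ⊓ N), μ x = 0 ↔ (x : V) ∈ M := by
    intro x
    change (M.submoduleOf M₂).mkQ (Submodule.inclusion inf_le_left x) = 0 ↔ _
    rw [Submodule.mkQ_apply, Submodule.Quotient.mk_eq_zero, mem_submoduleOf_iff]
    rfl
  -- kernel of μ
  have hkerμ : LinearMap.ker μ = (M ⊓ N).comap (M₂ ⊓ N).subtype := by
    ext x
    rw [LinearMap.mem_ker, hμ0, Submodule.mem_comap, Submodule.mem_inf]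
    exact ⟨fun h => ⟨h, x.2.2⟩, fun h => h.1⟩
  have hfinker : finrank K (LinearMap.ker μ) = finrank K ↥(M ⊓ N) := by
    rw [hkerμ]
    exact (Submodule.comapSubtypeEquivOfLe (inf_le_inf_right N hM)).finrank_eq
  -- range of μ = kernel of θ
  have hrange : LinearMap.range μ = LinearMap.ker θ := by
    apply le_antisymm
    · rintro _ ⟨x, rfl⟩
      rw [LinearMap.mem_ker]
      change θ ((M.submoduleOf M₂).mkQ (Submodule.inclusion inf_le_left x)) = 0
      rw [hθ, Submodule.mkQ_apply, Submodule.Quotient.mk_eq_zero]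
      exact Submodule.mem_sup_right x.2.2
    · intro q hq
      obtain ⟨m₂, rfl⟩ := (M.submoduleOf M₂).mkQ_surjective q
      rw [LinearMap.mem_ker, hθ, Submodule.mkQ_apply, Submodule.Quotient.mk_eq_zero,
        Submodule.mem_sup] at hq
      obtain ⟨m, hm, n, hn, hmn⟩ := hq
      have hn2 : n ∈ M₂ := by
        have : n = (m₂ : V) - m := by rw [← hmn]; abel
        rw [this]
        exact M₂.sub_mem m₂.2 (hM hm)
      refine ⟨⟨n, hn2, hn⟩, ?_⟩
      change (M.submoduleOf M₂).mkQ (Submodule.inclusion inf_le_left ⟨n, hn2, hn⟩) = _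
      rw [Submodule.mkQ_apply, Submodule.mkQ_apply, eq_comm, Submodule.Quotient.eq,
        mem_submoduleOf_iff]
      have : ((m₂ - Submodule.inclusion inf_le_left (⟨n, hn2, hn⟩ : ↥(M₂ ⊓ N)) : M₂) : V) = m := by
        change (m₂ : V) - n = m
        rw [← hmn]; abel
      change ((m₂ - Submodule.inclusion inf_le_left (⟨n, hn2, hn⟩ : ↥(M₂ ⊓ N)) : M₂) : V) ∈ M
      rw [this]
      exact hm
  -- range of θ
  have hrangeθ : LinearMap.range θ = (M₂ ⊔ N).map (M ⊔ N).mkQ := by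
    apply le_antisymm
    · rintro _ ⟨q, rfl⟩
      obtain ⟨m₂, rfl⟩ := (M.submoduleOf M₂).mkQ_surjective q
      rw [hθ]
      exact Submodule.mem_map_of_mem (Submodule.mem_sup_left m₂.2)
    · rintro _ ⟨w, hw, rfl⟩
      obtain ⟨m₂, hm₂, n, hn, rfl⟩ := Submodule.mem_sup.mp hw
      refine ⟨(M.submoduleOf M₂).mkQ ⟨m₂, hm₂⟩, ?_⟩
      rw [hθ, map_add]
      have : (M ⊔ N).mkQ n = 0 := by
        rw [Submodule.mkQ_apply, Submodule.Quotient.mk_eq_zero]
        exact Submodule.mem_sup_right hn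
      rw [this, add_zero]
  -- finiteness
  have : Module.Finite K (LinearMap.ker θ) := by
    rw [← hrange]; infer_instance
  have : Module.Finite K ((↥M₂ ⧸ M.submoduleOf M₂) ⧸ LinearMap.ker θ) :=
    Module.Finite.equiv θ.quotKerEquivRange.symm
  have hfin : Module.Finite K (↥M₂ ⧸ M.submoduleOf M₂) :=
    Module.Finite.of_submodule_quotient (LinearMap.ker θ)
  refine ⟨hfin, ?_⟩
  have e1 := LinearMap.finrank_range_add_finrank_ker μ
  have e2 := LinearMap.finrank_range_add_finrank_ker θ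
  have e3 := Submodule.finrank_quotient_add_finrank ((M₂ ⊔ N).map (M ⊔ N).mkQ)
  have e4 := (Submodule.quotientQuotientEquivQuotient (M ⊔ N) (M₂ ⊔ N) hW).finrank_eq
  rw [hrange, hfinker] at e1
  rw [hrangeθ] at e2
  rw [relDim]
  omega

/-- Additivity of the Euler characteristic in the second variable. -/
theorem chi_add' (M N N₂ : Submodule K V) (hN : N ≤ N₂)
    [Module.Finite K ↥(M ⊓ N₂)] [Module.Finite K (V ⧸ (M ⊔ N))] :
    Module.Finite K (↥N₂ ⧸ N.submoduleOf N₂) ∧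
    finrank K ↥(M ⊓ N₂) + finrank K (V ⧸ (M ⊔ N)) =
      finrank K ↥(M ⊓ N) + finrank K (V ⧸ (M ⊔ N₂)) + relDim N N₂ := by
  have : Module.Finite K ↥(N₂ ⊓ M) := by rw [inf_comm]; infer_instance
  have : Module.Finite K (V ⧸ (N ⊔ M)) := by rw [sup_comm]; infer_instance
  have := chi_add N N₂ M hN
  rw [inf_comm N₂ M, sup_comm N M, inf_comm N M, sup_comm N₂ M] at this
  exact this

end

end Fermat.Agent.S20.RRLite
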