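import Fermat.Agent.S20.RRLite.Infinity
import Fermat.Agent.S20.RRLite.Chi

/-!
# RR-lite, part 3: the objects of Theorem A

`K` a field, `F` a finite separable extension of `E = RatFunc K` (instances in the Mathlib
`FunctionField` style).  `B0K`, `BinfK` are the integral closures of `K[X]` and of the valuation
ring at infinity `Oinf K` in `F`, as `K`-subspaces of `F`; `Omega` is the space of
"regular differentials" `h dX`; `Rad0 a`, `RadInf` are the radicals of `(X - a) B0`, `X⁻¹ Binf`.
-/

set_option autoImplicit false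

namespace Fermat.Agent.S20.RRLite

open Polynomial Module

noncomputable section

variable (K F : Type*) [Field K] [Field F] [Algebra K F] [Algebra K[X] F] [Algebra (RatFunc K) F]
  [IsScalarTower K K[X] F] [IsScalarTower K[X] (RatFunc K) F] [IsScalarTower K (RatFunc K) F]

/-- The elements of `F` integral over `K[X]`, as a `K`-subspace. -/
def B0K : Submodule K F where
  carrier := {b | IsIntegral K[X] b}
  add_mem' := IsIntegral.add
  zero_mem' := isIntegral_zero
  smul_mem' c b hb := by
    rw [Algebra.smul_def, IsScalarTower.algebraMap_apply K K[X] F]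
    exact isIntegral_algebraMap.mul hb

/-- The elements of `F` integral over the valuation ring at infinity, as a `K`-subspace. -/
def BinfK : Submodule K F where
  carrier := {b | IsIntegral (Oinf K) b}
  add_mem' := IsIntegral.add
  zero_mem' := isIntegral_zero
  smul_mem' c b hb := by
    rw [Algebra.smul_def, IsScalarTower.algebraMap_apply K (Oinf K) F]
    exact isIntegral_algebraMap.mul hb

theorem mem_B0K {b : F} : b ∈ B0K K F ↔ IsIntegral K[X] b := Iff.rfl

theorem mem_BinfK {b : F} : b ∈ BinfK K F ↔ IsIntegral (Oinf K) b := Iff.rfl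

/-- The space of regular differentials `h dX`: `h` lies in the trace dual of `B0` and `X² h` in the
trace dual of `Binf`. -/
def Omega : Submodule K F where
  carrier := {h | (∀ b : F, IsIntegral K[X] b →
      Algebra.trace (RatFunc K) F (h * b) ∈ Set.range (algebraMap K[X] (RatFunc K))) ∧
    (∀ b : F, IsIntegral (Oinf K) b →
      RatFunc.X ^ 2 * Algebra.trace (RatFunc K) F (h * b) ∈ Oinf K)}
  add_mem' := by
    rintro h₁ h₂ ⟨h1, h1'⟩ ⟨h2, h2'⟩
    refine ⟨fun b hb => ?_, fun b hb => ?_⟩
    · rw [add_mul, map_add]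
      obtain ⟨p, hp⟩ := h1 b hb
      obtain ⟨q, hq⟩ := h2 b hb
      exact ⟨p + q, by rw [map_add, hp, hq]⟩
    · rw [add_mul, map_add, mul_add]
      exact (Oinf K).add_mem (h1' b hb) (h2' b hb)
  zero_mem' := by
    refine ⟨fun b _ => ⟨0, by simp⟩, fun b _ => ?_⟩
    simp only [zero_mul, map_zero, mul_zero]
    exact (Oinf K).zero_mem
  smul_mem' := by
    rintro c h ⟨h1, h1'⟩
    refine ⟨fun b hb => ?_, fun b hb => ?_⟩
    · obtain ⟨p, hp⟩ := h1 b hb
      refine ⟨Polynomial.C c * p, ?_⟩
      rw [smul_mul_assoc, ← algebraMap_smul (RatFunc K) c (h * b), map_smul, map_mul, hp,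
        smul_eq_mul, IsScalarTower.algebraMap_apply K K[X] (RatFunc K)]
      rfl
    · rw [smul_mul_assoc, ← algebraMap_smul (RatFunc K) c (h * b), map_smul, smul_eq_mul,
        mul_left_comm]
      exact (Oinf K).mul_mem ((Oinf K).algebraMap_mem c) (h1' b hb)

theorem mem_Omega {h : F} : h ∈ Omega K F ↔
    (∀ b : F, IsIntegral K[X] b →
      Algebra.trace (RatFunc K) F (h * b) ∈ Set.range (algebraMap K[X] (RatFunc K))) ∧
    (∀ b : F, IsIntegral (Oinf K) b →
      RatFunc.X ^ 2 * Algebra.trace (RatFunc K) F (h * b) ∈ Oinf K) := Iff.rfl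

/-- The uniformiser `X⁻¹` of the valuation ring at infinity. -/
def XinvO : Oinf K := ⟨(RatFunc.X)⁻¹, X_inv_mem_Oinf K⟩

/-- Integral elements `b` with `b ^ k ∈ t B` for some `k`, for `t` in the base ring `A`: the
radical of `t B`. (Stated for a general base ring `A`.) -/
def IsNilMod (A : Type*) [CommRing A] [Algebra A F] (t : A) (b : F) : Prop :=
  IsIntegral A b ∧ ∃ (k : ℕ) (c : F), IsIntegral A c ∧ b ^ k = algebraMap A F t * c

omit [Algebra K F] [Algebra K[X] F] [Algebra (RatFunc K) F] [IsScalarTower K K[X] F]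
  [IsScalarTower K[X] (RatFunc K) F] [IsScalarTower K (RatFunc K) F] in
theorem isNilMod_iff (A : Type*) [CommRing A] [Algebra A F] (t : A) (b : F) :
    IsNilMod F A t b ↔ ∃ b' : integralClosure A F, (b' : F) = b ∧
      b' ∈ (Ideal.span {algebraMap A (integralClosure A F) t}).radical := by
  constructor
  · rintro ⟨hb, k, c, hc, hk⟩
    refine ⟨⟨b, hb⟩, rfl, k, ?_⟩
    rw [Ideal.mem_span_singleton']
    refine ⟨⟨c, hc⟩, ?_⟩
    apply Subtype.ext
    rw [mul_comm]
    exact hk.symm
  · rintro ⟨b', rfl, k, hk⟩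
    rw [Ideal.mem_span_singleton'] at hk
    obtain ⟨c, hc⟩ := hk
    refine ⟨b'.2, k, c, c.2, ?_⟩
    have := congrArg (fun z : integralClosure A F => (z : F)) hc
    simp only [MulMemClass.coe_mul, SubmonoidClass.coe_pow] at this
    rw [← this, mul_comm]
    rfl

omit [Algebra K F] [Algebra K[X] F] [Algebra (RatFunc K) F] [IsScalarTower K K[X] F]
  [IsScalarTower K[X] (RatFunc K) F] [IsScalarTower K (RatFunc K) F] in
theorem IsNilMod.add {A : Type*} [CommRing A] [Algebra A F] {t : A} {b₁ b₂ : F}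
    (h₁ : IsNilMod F A t b₁) (h₂ : IsNilMod F A t b₂) : IsNilMod F A t (b₁ + b₂) := by
  rw [isNilMod_iff] at h₁ h₂ ⊢
  obtain ⟨b₁', rfl, h₁⟩ := h₁
  obtain ⟨b₂', rfl, h₂⟩ := h₂
  exact ⟨b₁' + b₂', rfl, Ideal.add_mem _ h₁ h₂⟩

omit [Algebra K F] [Algebra K[X] F] [Algebra (RatFunc K) F] [IsScalarTower K K[X] F]
  [IsScalarTower K[X] (RatFunc K) F] [IsScalarTower K (RatFunc K) F] in
theorem IsNilMod.mul_left {A : Type*} [CommRing A] [Algebra A F] {t : A} {b : F}
    (h : IsNilMod F A t b) {c : F} (hc : IsIntegral A c) : IsNilMod F A t (c * b) := by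
  rw [isNilMod_iff] at h ⊢
  obtain ⟨b', rfl, h⟩ := h
  exact ⟨⟨c, hc⟩ * b', rfl, Ideal.mul_mem_left _ _ h⟩

omit [Algebra K F] [Algebra K[X] F] [Algebra (RatFunc K) F] [IsScalarTower K K[X] F]
  [IsScalarTower K[X] (RatFunc K) F] [IsScalarTower K (RatFunc K) F] in
theorem isNilMod_zero (A : Type*) [CommRing A] [Algebra A F] (t : A) : IsNilMod F A t 0 :=
  ⟨isIntegral_zero, 1, 0, isIntegral_zero, by simp⟩

/-- The radical of `(X - a) B0`, as a `K`-subspace of `F`. -/
def Rad0 (a : K) : Submodule K F where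
  carrier := {b | IsNilMod F K[X] (X - C a) b}
  add_mem' := IsNilMod.add F
  zero_mem' := isNilMod_zero F _ _
  smul_mem' c b hb := by
    rw [Algebra.smul_def, IsScalarTower.algebraMap_apply K K[X] F]
    exact hb.mul_left F isIntegral_algebraMap

/-- The radical of `X⁻¹ Binf`, as a `K`-subspace of `F`. -/
def RadInf : Submodule K F where
  carrier := {b | IsNilMod F (Oinf K) (XinvO K) b}
  add_mem' := IsNilMod.add F
  zero_mem' := isNilMod_zero F _ _
  smul_mem' c b hb := by
    rw [Algebra.smul_def, IsScalarTower.algebraMap_apply K (Oinf K) F]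
    exact hb.mul_left F isIntegral_algebraMap

theorem mem_Rad0 {a : K} {b : F} : b ∈ Rad0 K F a ↔ IsNilMod F K[X] (X - C a) b := Iff.rfl

theorem mem_RadInf {b : F} : b ∈ RadInf K F ↔ IsNilMod F (Oinf K) (XinvO K) b := Iff.rfl

/-- `r_a = dim_K B0 / rad((X - a) B0)` (the number of points over `X = a`). -/
def rFin (a : K) : ℕ := relDim (Rad0 K F a) (B0K K F)

/-- `r_∞ = dim_K Binf / rad(X⁻¹ Binf)` (the number of points over `X = ∞`). -/
def rInf : ℕ := relDim (RadInf K F) (BinfK K F)

end

end Fermat.Agent.S20.RRLite
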