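import Mathlib

/-!
# Wrapper for the RR-LITE core: the instances coming from a transcendental `x : F`

`polyAlgebra x : Algebra K[X] F` (`X ↦ x`), `ratHom x hx : RatFunc K →ₐ[K] F`,
`ratAlgebra x hx : Algebra (RatFunc K) F`, the scalar towers, and
`finrank (RatFunc K) F = finrank K⟮x⟯ F`.
-/

namespace Fermat.Agent.S20.RRLite

open Polynomial Module

namespace Wrap

open IntermediateField

variable {K F : Type*} [Field K] [Field F] [Algebra K F]

/-- `K[X] → F`, `X ↦ x`. -/
@[reducible] noncomputable def polyAlgebra (x : F) : Algebra K[X] F := (Polynomial.aeval x).toAlgebra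

/-- `K(X) → F`, `X ↦ x`, for transcendental `x`. -/
noncomputable def ratHom (x : F) (hx : Transcendental K x) : RatFunc K →ₐ[K] F :=
  RatFunc.liftAlgHom (Polynomial.aeval x)
    (nonZeroDivisors_le_comap_nonZeroDivisors_of_injective _ (transcendental_iff_injective.mp hx))

@[reducible] noncomputable def ratAlgebra (x : F) (hx : Transcendental K x) :
    Algebra (RatFunc K) F := (ratHom x hx).toRingHom.toAlgebra

theorem ratHom_apply (x : F) (hx : Transcendental K x) (u : RatFunc K) :
    ratHom x hx u = aeval x u.num / aeval x u.denom :=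
  RatFunc.liftAlgHom_apply _ _ u

theorem ratHom_algebraMap (x : F) (hx : Transcendental K x) (p : K[X]) :
    ratHom x hx (algebraMap K[X] (RatFunc K) p) = aeval x p := by
  have := RatFunc.liftAlgHom_apply_div (φ := (Polynomial.aeval x : K[X] →ₐ[K] F))
    (hφ := nonZeroDivisors_le_comap_nonZeroDivisors_of_injective _
      (transcendental_iff_injective.mp hx)) p 1
  simpa [ratHom] using this

theorem ratHom_X (x : F) (hx : Transcendental K x) : ratHom x hx RatFunc.X = x := by
  rw [← RatFunc.algebraMap_X, ratHom_algebraMap, aeval_X]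

theorem ratHom_eq_algEquiv (x : F) (hx : Transcendental K x) (u : RatFunc K) :
    ratHom x hx u = ((RatFunc.algEquivOfTranscendental x hx u : K⟮x⟯) : F) := by
  rw [ratHom_apply, RatFunc.algEquivOfTranscendental_apply]

theorem tower_poly (x : F) :
    letI := polyAlgebra (K := K) x
    IsScalarTower K K[X] F := by
  let _ := polyAlgebra (K := K) x
  refine IsScalarTower.of_algebraMap_eq fun c => ?_
  show algebraMap K F c = aeval x (algebraMap K K[X] c)
  rw [Polynomial.algebraMap_apply, aeval_C]
  rfl

theorem tower_rat (x : F) (hx : Transcendental K x) :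
    letI := polyAlgebra (K := K) x
    letI := ratAlgebra x hx
    IsScalarTower K[X] (RatFunc K) F ∧ IsScalarTower K (RatFunc K) F := by
  let _ := polyAlgebra (K := K) x
  let _ := ratAlgebra x hx
  constructor
  · refine IsScalarTower.of_algebraMap_eq fun p => ?_
    show aeval x p = ratHom x hx (algebraMap K[X] (RatFunc K) p)
    rw [ratHom_algebraMap]
  · refine IsScalarTower.of_algebraMap_eq fun c => ?_
    show algebraMap K F c = ratHom x hx (algebraMap K (RatFunc K) c)
    rw [AlgHom.commutes]

theorem finrank_eq (x : F) (hx : Transcendental K x) [FiniteDimensional K⟮x⟯ F] :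
    letI := ratAlgebra x hx
    FiniteDimensional (RatFunc K) F ∧ finrank (RatFunc K) F = finrank K⟮x⟯ F := by
  let _ := ratAlgebra x hx
  have hc : (algebraMap K⟮x⟯ F).comp
      (RatFunc.algEquivOfTranscendental x hx).toRingEquiv.toRingHom =
      (RingEquiv.refl F).toRingHom.comp (algebraMap (RatFunc K) F) := by
    ext u
    show ((RatFunc.algEquivOfTranscendental x hx u : K⟮x⟯) : F) = ratHom x hx u
    rw [ratHom_eq_algEquiv]
  have hc' : (algebraMap (RatFunc K) F).comp
      (RatFunc.algEquivOfTranscendental x hx).symm.toRingEquiv.toRingHom =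
      (RingEquiv.refl F).toRingHom.comp (algebraMap K⟮x⟯ F) := by
    ext u
    show ratHom x hx ((RatFunc.algEquivOfTranscendental x hx).symm u) = (u : F)
    rw [ratHom_eq_algEquiv, AlgEquiv.apply_symm_apply]
  refine ⟨?_, ?_⟩
  · exact Module.Finite.of_equiv_equiv (RatFunc.algEquivOfTranscendental x hx).symm.toRingEquiv
      (RingEquiv.refl F) hc'
  · exact Algebra.finrank_eq_of_equiv_equiv (RatFunc.algEquivOfTranscendental x hx).toRingEquiv
      (RingEquiv.refl F) hc

theorem isSeparable (x : F) (hx : Transcendental K x) [CharZero K] [FiniteDimensional K⟮x⟯ F] :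
    letI := ratAlgebra x hx
    Algebra.IsSeparable (RatFunc K) F := by
  let _ := ratAlgebra x hx
  have := (finrank_eq x hx).1
  have : CharZero (RatFunc K) := charZero_of_injective_algebraMap (algebraMap K (RatFunc K)).injective
  infer_instance

theorem algebraMap_rat_eq (x : F) (hx : Transcendental K x) (u : RatFunc K) :
    letI := ratAlgebra x hx
    algebraMap (RatFunc K) F u = aeval x u.num / aeval x u.denom :=
  ratHom_apply x hx u

theorem algebraMap_poly_eq (x : F) (p : K[X]) :
    letI := polyAlgebra (K := K) x
    algebraMap K[X] F p = aeval x p := rfl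

end Wrap

end Fermat.Agent.S20.RRLite
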