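import Fermat.Agent.S20.RRLite.Chi

/-!
# RR-lite: generic inequalities for relative dimensions of subspaces
-/

set_option autoImplicit false

namespace Fermat.Agent.S20.RRLite

open Module

noncomputable section

variable {K V : Type*} [Field K] [AddCommGroup V] [Module K V]

/-- If `ψ : M₂ → W` has kernel inside `M`, then `dim M₂/M ≤ dim W`. -/
theorem relDim_le_of_ker_le {W : Type*} [AddCommGroup W] [Module K W] [Module.Finite K W]
    (M M₂ : Submodule K V) (ψ : ↥M₂ →ₗ[K] W) (hk : ∀ f : M₂, ψ f = 0 → (f : V) ∈ M) :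
    Module.Finite K (↥M₂ ⧸ M.submoduleOf M₂) ∧ relDim M M₂ ≤ finrank K W := by
  have hle : LinearMap.ker ψ ≤ M.submoduleOf M₂ := fun f hf => hk f hf
  have hfin1 : Module.Finite K (↥M₂ ⧸ LinearMap.ker ψ) :=
    Module.Finite.equiv ψ.quotKerEquivRange.symm
  let φ : (↥M₂ ⧸ LinearMap.ker ψ) →ₗ[K] (↥M₂ ⧸ M.submoduleOf M₂) :=
    Submodule.mapQ _ _ LinearMap.id hle
  have hφ : Function.Surjective φ := by
    intro q
    obtain ⟨f, rfl⟩ := (M.submoduleOf M₂).mkQ_surjective q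
    exact ⟨(LinearMap.ker ψ).mkQ f, rfl⟩
  refine ⟨Module.Finite.of_surjective φ hφ, ?_⟩
  calc relDim M M₂ ≤ finrank K (↥M₂ ⧸ LinearMap.ker ψ) :=
        LinearMap.finrank_le_finrank_of_surjective hφ
    _ = finrank K (LinearMap.range ψ) := ψ.quotKerEquivRange.finrank_eq
    _ ≤ finrank K W := Submodule.finrank_le _

/-- Comparison of relative dimensions along a linear map. -/
theorem relDim_le_relDim {V' : Type*} [AddCommGroup V'] [Module K V']
    (M M₂ : Submodule K V) (M' M₂' : Submodule K V')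
    [Module.Finite K (↥M₂' ⧸ M'.submoduleOf M₂')]
    (ψ : V →ₗ[K] V') (h1 : ∀ f ∈ M₂, ψ f ∈ M₂') (h2 : ∀ f ∈ M₂, ψ f ∈ M' → f ∈ M) :
    Module.Finite K (↥M₂ ⧸ M.submoduleOf M₂) ∧ relDim M M₂ ≤ relDim M' M₂' := by
  refine relDim_le_of_ker_le M M₂ ((M'.submoduleOf M₂').mkQ ∘ₗ ψ.restrict h1) ?_
  intro f hf
  rw [LinearMap.comp_apply, Submodule.mkQ_apply, Submodule.Quotient.mk_eq_zero,
    mem_submoduleOf_iff] at hf
  exact h2 f f.2 hf

/-- Subadditivity of the relative dimension along a chain `M ≤ M' ≤ M₂`. -/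
theorem relDim_le_add (M M' M₂ : Submodule K V) (h1 : M ≤ M') (h2 : M' ≤ M₂)
    [Module.Finite K (↥M₂ ⧸ M.submoduleOf M₂)] :
    relDim M M₂ ≤ relDim M M' + relDim M' M₂ := by
  have hfin' : Module.Finite K (↥M' ⧸ M.submoduleOf M') :=
    (relDim_le_relDim M M' M M₂ LinearMap.id (fun f hf => h2 hf) (fun f _ hf => hf)).1
  have hle : M.submoduleOf M₂ ≤ M'.submoduleOf M₂ := fun f hf => h1 hf
  let φ : (↥M₂ ⧸ M.submoduleOf M₂) →ₗ[K] (↥M₂ ⧸ M'.submoduleOf M₂) :=
    Submodule.mapQ _ _ LinearMap.id hle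
  -- the map `M'/M → ker φ`
  let θ : (↥M' ⧸ M.submoduleOf M') →ₗ[K] (↥M₂ ⧸ M.submoduleOf M₂) :=
    Submodule.mapQ _ _ (Submodule.inclusion h2) (fun f hf => hf)
  have hθ : LinearMap.ker φ ≤ LinearMap.range θ := by
    intro q hq
    obtain ⟨f, rfl⟩ := (M.submoduleOf M₂).mkQ_surjective q
    rw [LinearMap.mem_ker] at hq
    change (M'.submoduleOf M₂).mkQ f = 0 at hq
    rw [Submodule.mkQ_apply, Submodule.Quotient.mk_eq_zero, mem_submoduleOf_iff] at hq
    exact ⟨(M.submoduleOf M').mkQ ⟨f, hq⟩, rfl⟩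
  have hfinQ' : Module.Finite K (↥M₂ ⧸ M'.submoduleOf M₂) := by
    refine Module.Finite.of_surjective φ ?_
    intro q
    obtain ⟨f, rfl⟩ := (M'.submoduleOf M₂).mkQ_surjective q
    exact ⟨(M.submoduleOf M₂).mkQ f, rfl⟩
  have e1 := LinearMap.finrank_range_add_finrank_ker φ
  have e2 : finrank K (LinearMap.range φ) ≤ finrank K (↥M₂ ⧸ M'.submoduleOf M₂) :=
    Submodule.finrank_le _
  have e3 : finrank K (LinearMap.ker φ) ≤ finrank K (LinearMap.range θ) :=
    Submodule.finrank_mono hθ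
  have e4 : finrank K (LinearMap.range θ) ≤ finrank K (↥M' ⧸ M.submoduleOf M') :=
    LinearMap.finrank_range_le θ
  unfold relDim
  omega

/-- The relative dimension of a finite intersection is at most the sum. -/
theorem relDim_inf_iInf_le {α : Type*} (T : Finset α) (Ms : α → Submodule K V)
    (M₂ : Submodule K V) (hfin : ∀ a ∈ T, Module.Finite K (↥M₂ ⧸ (Ms a).submoduleOf M₂)) :
    relDim (M₂ ⊓ ⨅ a ∈ T, Ms a) M₂ ≤ ∑ a ∈ T, relDim (Ms a) M₂ := by
  classical
  have : ∀ a : T, Module.Finite K (↥M₂ ⧸ (Ms a).submoduleOf M₂) := fun a => hfin a a.2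
  let ψ : ↥M₂ →ₗ[K] ((a : T) → (↥M₂ ⧸ (Ms a).submoduleOf M₂)) :=
    LinearMap.pi (fun a => ((Ms a).submoduleOf M₂).mkQ)
  have := (relDim_le_of_ker_le (M₂ ⊓ ⨅ a ∈ T, Ms a) M₂ ψ (by
    intro f hf
    refine Submodule.mem_inf.mpr ⟨f.2, ?_⟩
    rw [Submodule.mem_iInf]
    intro a
    rw [Submodule.mem_iInf]
    intro ha
    have := congrFun hf ⟨a, ha⟩
    change ((Ms a).submoduleOf M₂).mkQ f = 0 at this
    rwa [Submodule.mkQ_apply, Submodule.Quotient.mk_eq_zero, mem_submoduleOf_iff] at this)).2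
  rw [Module.finrank_pi_fintype] at this
  rw [← Finset.sum_coe_sort T (fun a => relDim (Ms a) M₂)]
  exact this

/-- A family in `M₂` that is independent modulo `M` bounds the relative dimension below. -/
theorem card_le_relDim {J : Type*} [Fintype J] (M M₂ : Submodule K V)
    [Module.Finite K (↥M₂ ⧸ M.submoduleOf M₂)] (v : J → V) (hv : ∀ j, v j ∈ M₂)
    (hind : ∀ c : J → K, ∑ j, c j • v j ∈ M → c = 0) : Fintype.card J ≤ relDim M M₂ := by
  let ψ : (J → K) →ₗ[K] ↥M₂ :=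
    { toFun := fun c => ⟨∑ j, c j • v j, Submodule.sum_mem _ fun j _ => Submodule.smul_mem _ _ (hv j)⟩
      map_add' := fun c d => by
        apply Subtype.ext
        simp [add_smul, Finset.sum_add_distrib]
      map_smul' := fun a c => by
        apply Subtype.ext
        simp [mul_smul, Finset.smul_sum] }
  have := relDim_le_of_injective M M₂ ψ (fun c hc => hind c hc)
  rwa [Module.finrank_fintype_fun_eq_card] at this

end

end Fermat.Agent.S20.RRLite
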