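import Fermat.Agent.S20.RRLite.Duality
import Fermat.Agent.S20.RRLite.RelDim

/-!
# RR-lite, part 6: the integral closures `B0`, `Binf` as lattices

Bases of the integral closures over the two principal ideal domains `K[X]`, `Oinf K`, the
identification of `Omega` with a dual lattice pair, `B0 ∩ Binf = K`, and the basic inclusions.
-/

set_option autoImplicit false

namespace Fermat.Agent.S20.RRLite

open Polynomial Module

noncomputable section

open scoped nonZeroDivisors in
/-- The integral closure of a principal ideal domain `A` in a finite separable extension `F` of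
its fraction field `E` is spanned over `A` by an `E`-basis of `F`. -/
theorem exists_basis_integralClosure (A : Type*) [CommRing A] [IsDomain A]
    [IsPrincipalIdealRing A] [IsIntegrallyClosed A]
    (E F : Type*) [Field E] [Field F] [Algebra A E] [IsFractionRing A E] [Algebra E F]
    [Algebra A F] [IsScalarTower A E F] [FiniteDimensional E F] [Algebra.IsSeparable E F] :
    ∃ (n : ℕ) (e : Basis (Fin n) E F),
      ∀ f : F, f ∈ Submodule.span A (Set.range e) ↔ IsIntegral A f := by
  have hfin : Module.Finite A (integralClosure A F) := IsIntegralClosure.finite A E F _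
  have htf0 : Module.IsTorsionFree A F := .trans_faithfulSMul A E F
  have htf : Module.IsTorsionFree A (integralClosure A F) := inferInstance
  have hfree : Module.Free A (integralClosure A F) := Module.free_of_finite_type_torsion_free'
  have hloc : IsLocalization (Algebra.algebraMapSubmonoid (integralClosure A F) A⁰) F :=
    IsIntegralClosure.isLocalization A E F _
  let b := Module.Free.chooseBasis A (integralClosure A F)
  let e₀ := b.localizationLocalization E A⁰ F
  refine ⟨Fintype.card (Module.Free.ChooseBasisIndex A (integralClosure A F)),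
    e₀.reindex (Fintype.equivFin _), fun f => ?_⟩
  rw [Basis.range_reindex, Basis.localizationLocalization_span]
  constructor
  · rintro ⟨x, rfl⟩
    exact x.2
  · intro hf
    exact ⟨⟨f, hf⟩, rfl⟩

variable (K F : Type*) [Field K] [Field F] [Algebra K F] [Algebra K[X] F]
  [Algebra (RatFunc K) F] [IsScalarTower K K[X] F] [IsScalarTower K[X] (RatFunc K) F]
  [IsScalarTower K (RatFunc K) F]
  [FiniteDimensional (RatFunc K) F] [Algebra.IsSeparable (RatFunc K) F]

theorem exists_basis_B0 :
    ∃ (n : ℕ) (e : Basis (Fin n) (RatFunc K) F), L0 K e = B0K K F := by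
  obtain ⟨n, e, he⟩ := exists_basis_integralClosure K[X] (RatFunc K) F
  refine ⟨n, e, ?_⟩
  ext f
  rw [L0, Submodule.restrictScalars_mem, he, mem_B0K]

theorem exists_basis_Binf :
    ∃ (n : ℕ) (u : Basis (Fin n) (RatFunc K) F), Linf K u = BinfK K F := by
  obtain ⟨n, u, hu⟩ := exists_basis_integralClosure (Oinf K) (RatFunc K) F
  refine ⟨n, u, ?_⟩
  ext f
  rw [Linf, Submodule.restrictScalars_mem, hu, mem_BinfK]

variable {K F}
variable {ι ι' : Type*} [Fintype ι] [DecidableEq ι] [Fintype ι'] [DecidableEq ι']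

/-- `Omega` as a dual lattice pair. -/
theorem Omega_eq (e : Basis ι (RatFunc K) F) (u : Basis ι' (RatFunc K) F)
    (he : L0 K e = B0K K F) (hu : Linf K u = BinfK K F) :
    Omega K F = L0 K e.traceDual ⊓ Linf K (twist K u) := by
  ext h
  rw [Submodule.mem_inf, mem_Omega]
  constructor
  · rintro ⟨h1, h2⟩
    constructor
    · rw [mem_L0]
      intro i
      rw [traceDual_repr]
      apply h1
      rw [← mem_B0K, ← he]
      exact basis_mem_L0 K e i
    · rw [mem_Linf_twist]
      intro i
      apply h2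
      rw [← mem_BinfK, ← hu]
      exact basis_mem_Linf K u i
  · rintro ⟨h1, h2⟩
    constructor
    · intro b hb
      rw [← mem_B0K, ← he] at hb
      exact trace_mem_of_mem_L0 K e h1 hb
    · intro b hb
      rw [← mem_BinfK, ← hu] at hb
      exact X_sq_mul_trace_mem_of_mem_Linf K u h2 hb

/-- An element of `F` integral over both `K[X]` and `Oinf K` is a constant. -/
theorem mem_range_of_isIntegral_both [IsAlgClosed K] {f : F} (h0 : IsIntegral K[X] f)
    (hinf : IsIntegral (Oinf K) f) : f ∈ Set.range (algebraMap K F) := by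
  have e1 := minpoly.isIntegrallyClosed_eq_field_fractions' (RatFunc K) h0
  have e2 := minpoly.isIntegrallyClosed_eq_field_fractions' (RatFunc K) hinf
  have hlift : minpoly (RatFunc K) f ∈ Polynomial.lifts (algebraMap K (RatFunc K)) := by
    rw [Polynomial.lifts_iff_coeff_lifts]
    intro k
    have hk1 : (minpoly (RatFunc K) f).coeff k =
        algebraMap K[X] (RatFunc K) ((minpoly K[X] f).coeff k) := by
      rw [e1, Polynomial.coeff_map]
    have hk2 : (minpoly (RatFunc K) f).coeff k ∈ Oinf K := by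
      rw [e2, Polynomial.coeff_map]
      exact ((minpoly (Oinf K) f).coeff k).2
    rw [hk1] at hk2 ⊢
    rw [algebraMap_mem_Oinf_iff] at hk2
    rw [hk2]
    exact ⟨((minpoly K[X] f).coeff k).coeff 0, by
      rw [IsScalarTower.algebraMap_apply K K[X] (RatFunc K)]; rfl⟩
  obtain ⟨q, hq, -, hqm⟩ := Polynomial.lifts_and_degree_eq_and_monic hlift
    (minpoly.monic (h0.tower_top))
  have hqf : Polynomial.aeval f q = 0 := by
    rw [← Polynomial.aeval_map_algebraMap (RatFunc K) f q, hq, minpoly.aeval]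
  have hint : IsIntegral K f := ⟨q, hqm, by rwa [← Polynomial.aeval_def]⟩
  have hdeg := IsAlgClosed.degree_eq_one_of_irreducible K (minpoly.irreducible hint)
  exact minpoly.mem_range_of_degree_eq_one K f hdeg


/-! ### The shifted lattice `X⁻² Binf` and the basic inclusions -/

/-- The basis `X⁻² • u`. -/
def shift (u : Basis ι (RatFunc K) F) : Basis ι (RatFunc K) F :=
  scale K ((RatFunc.X)⁻¹ ^ 2) (pow_ne_zero _ (inv_ne_zero RatFunc.X_ne_zero)) u

omit [Algebra K[X] F] [IsScalarTower K K[X] F] [IsScalarTower K[X] (RatFunc K) F]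
  [FiniteDimensional (RatFunc K) F] [Algebra.IsSeparable (RatFunc K) F] [Fintype ι]
  [DecidableEq ι] in
theorem mem_Linf_shift {u : Basis ι (RatFunc K) F} {f : F} :
    f ∈ Linf K (shift u) ↔ ∀ i, RatFunc.X ^ 2 * u.repr f i ∈ Oinf K := by
  rw [mem_Linf]
  refine forall_congr' fun i => ?_
  rw [shift, scale_repr, inv_pow, inv_inv]

omit [Algebra K[X] F] [IsScalarTower K K[X] F] [IsScalarTower K[X] (RatFunc K) F]
  [FiniteDimensional (RatFunc K) F] [Algebra.IsSeparable (RatFunc K) F] [Fintype ι]
  [DecidableEq ι] in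
theorem Linf_shift_le (u : Basis ι (RatFunc K) F) : Linf K (shift u) ≤ Linf K u := by
  intro f hf
  rw [mem_Linf_shift] at hf
  rw [mem_Linf]
  intro i
  have := (Oinf K).mul_mem (X_inv_pow_mem_Oinf K 2) (hf i)
  rwa [← mul_assoc, ← mul_pow, inv_mul_cancel₀ RatFunc.X_ne_zero, one_pow, one_mul] at this

omit [Algebra K[X] F] [IsScalarTower K K[X] F] [IsScalarTower K[X] (RatFunc K) F]
  [FiniteDimensional (RatFunc K) F] [Algebra.IsSeparable (RatFunc K) F] [Fintype ι]
  [DecidableEq ι] in
theorem X_sq_smul_mem_Linf {u : Basis ι (RatFunc K) F} {f : F} (hf : f ∈ Linf K (shift u)) :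
    ((RatFunc.X : RatFunc K) ^ 2) • f ∈ Linf K u := by
  rw [mem_Linf_shift] at hf
  rw [mem_Linf]
  intro i
  rw [map_smul, Finsupp.smul_apply, smul_eq_mul]
  exact hf i

omit [Algebra K F] [IsScalarTower K K[X] F] [IsScalarTower K (RatFunc K) F]
  [Algebra.IsSeparable (RatFunc K) F] in
theorem trace_mem_range_of_isIntegral {c : F} (hc : IsIntegral K[X] c) :
    Algebra.trace (RatFunc K) F c ∈ Set.range (algebraMap K[X] (RatFunc K)) :=
  IsIntegrallyClosed.isIntegral_iff.mp (Algebra.isIntegral_trace hc)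

omit [Algebra K F] [Algebra K[X] F] [IsScalarTower K K[X] F] [IsScalarTower K[X] (RatFunc K) F]
  [IsScalarTower K (RatFunc K) F] [Algebra.IsSeparable (RatFunc K) F] in
theorem trace_mem_Oinf_of_isIntegral {c : F} (hc : IsIntegral (Oinf K) c) :
    Algebra.trace (RatFunc K) F c ∈ Oinf K :=
  mem_Oinf_of_isIntegral K (Algebra.isIntegral_trace hc)

theorem L0_le_traceDual (e : Basis ι (RatFunc K) F) (he : L0 K e = B0K K F) :
    L0 K e ≤ L0 K e.traceDual := by
  intro f hf
  rw [mem_L0]
  intro i
  rw [traceDual_repr]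
  apply trace_mem_range_of_isIntegral
  have h1 : IsIntegral K[X] f := by rw [← mem_B0K, ← he]; exact hf
  have h2 : IsIntegral K[X] (e i) := by rw [← mem_B0K, ← he]; exact basis_mem_L0 K e i
  exact h1.mul h2

theorem Linf_shift_le_twist (u : Basis ι (RatFunc K) F) (hu : Linf K u = BinfK K F) :
    Linf K (shift u) ≤ Linf K (twist K u) := by
  intro f hf
  rw [mem_Linf_twist]
  intro i
  have h1 : IsIntegral (Oinf K) (((RatFunc.X : RatFunc K) ^ 2) • f) := by
    rw [← mem_BinfK, ← hu]; exact X_sq_smul_mem_Linf hf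
  have h2 : IsIntegral (Oinf K) (u i) := by
    rw [← mem_BinfK, ← hu]; exact basis_mem_Linf K u i
  have := trace_mem_Oinf_of_isIntegral (h1.mul h2)
  rwa [smul_mul_assoc, map_smul, smul_eq_mul] at this

variable (K F) in
theorem B0K_inf_BinfK [IsAlgClosed K] :
    B0K K F ⊓ BinfK K F = Submodule.span K {(1 : F)} := by
  ext f
  rw [Submodule.mem_inf, Submodule.mem_span_singleton]
  constructor
  · rintro ⟨h0, hinf⟩
    obtain ⟨c, rfl⟩ := mem_range_of_isIntegral_both h0 hinf
    exact ⟨c, by rw [Algebra.smul_def, mul_one]⟩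
  · rintro ⟨c, rfl⟩
    exact ⟨(B0K K F).smul_mem c isIntegral_one, (BinfK K F).smul_mem c isIntegral_one⟩

variable (K F) in
theorem finrank_B0K_inf_BinfK [IsAlgClosed K] : finrank K ↥(B0K K F ⊓ BinfK K F) = 1 := by
  rw [B0K_inf_BinfK]
  exact finrank_span_singleton one_ne_zero

theorem L0_inf_Linf_shift [IsAlgClosed K] (e : Basis ι (RatFunc K) F)
    (u : Basis ι' (RatFunc K) F) (he : L0 K e = B0K K F) (hu : Linf K u = BinfK K F) :
    L0 K e ⊓ Linf K (shift u) = ⊥ := by
  rw [eq_bot_iff]
  rintro f ⟨h0, h1⟩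
  have h2 := Linf_shift_le u h1
  rw [SetLike.mem_coe, he] at h0
  rw [hu] at h2
  obtain ⟨c, rfl⟩ := mem_range_of_isIntegral_both h0 h2
  have h3 : IsIntegral (Oinf K) (((RatFunc.X : RatFunc K) ^ 2) • algebraMap K F c) := by
    rw [← mem_BinfK, ← hu]; exact X_sq_smul_mem_Linf h1
  have h4 : ((RatFunc.X : RatFunc K) ^ 2) • algebraMap K F c =
      algebraMap (RatFunc K) F (RatFunc.X ^ 2 * RatFunc.C c) := by
    rw [Algebra.smul_def, map_mul, IsScalarTower.algebraMap_apply K (RatFunc K) F,
      RatFunc.algebraMap_eq_C]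
  rw [h4, isIntegral_algebraMap_iff (algebraMap (RatFunc K) F).injective] at h3
  have h5 := mem_Oinf_of_isIntegral K h3
  rw [X_pow_mul_mem_Oinf_iff] at h5
  have h6 := h5 0 (by norm_num)
  rw [expInf_C, HahnSeries.C_apply, HahnSeries.coeff_single_same] at h6
  simp [h6]

omit [Algebra K[X] F] [IsScalarTower K K[X] F] [IsScalarTower K[X] (RatFunc K) F]
  [FiniteDimensional (RatFunc K) F] [Algebra.IsSeparable (RatFunc K) F] [DecidableEq ι] in
/-- `dim_K (Binf / X⁻² Binf) ≤ 2 n`. -/
theorem relDim_shift_le (u : Basis ι (RatFunc K) F) :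
    relDim (Linf K (shift u)) (Linf K u) ≤ 2 * Fintype.card ι := by
  let ψ : ↥(Linf K u) →ₗ[K] (ι → K × K) :=
    (LinearMap.pi fun i => ((coeffInf K 0).prod (coeffInf K 1)) ∘ₗ
      ((Finsupp.lapply i ∘ₗ u.repr.toLinearMap).restrictScalars K)) ∘ₗ (Linf K u).subtype
  have hψ : ∀ (f : Linf K u) (i : ι), ψ f i =
      ((expInf K (u.repr (f : F) i)).coeff 0, (expInf K (u.repr (f : F) i)).coeff 1) :=
    fun f i => rfl
  have := (relDim_le_of_ker_le (Linf K (shift u)) (Linf K u) ψ (by
    intro f hf
    rw [mem_Linf_shift]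
    intro i
    rw [X_pow_mul_mem_Oinf_iff]
    intro m hm
    have hi := congrFun hf i
    rw [hψ] at hi
    have hf' := (mem_Linf K).mp f.2 i
    rcases lt_trichotomy m 0 with h | h | h
    · exact hf' m h
    · subst h; exact (Prod.ext_iff.mp hi).1
    · have : m = 1 := by push_cast at hm; omega
      subst this; exact (Prod.ext_iff.mp hi).2)).2
  rw [Module.finrank_pi_fintype] at this
  simpa [mul_comm] using this

/-- The exact Riemann–Roch identity (Theorem B without evaluating `dim Binf / X⁻² Binf`). -/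
theorem main_identity [IsAlgClosed K] (e : Basis ι (RatFunc K) F) (u : Basis ι' (RatFunc K) F)
    (he : L0 K e = B0K K F) (hu : Linf K u = BinfK K F) :
    Module.Finite K (Omega K F) ∧
    Module.Finite K (↥(L0 K e.traceDual) ⧸ (L0 K e).submoduleOf (L0 K e.traceDual)) ∧
    Module.Finite K (↥(Linf K (twist K u)) ⧸ (Linf K (shift u)).submoduleOf (Linf K (twist K u))) ∧
    2 * finrank K (Omega K F) + relDim (Linf K (shift u)) (Linf K u) =
      2 + relDim (L0 K e) (L0 K e.traceDual) + relDim (Linf K (shift u)) (Linf K (twist K u)) := by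
  obtain ⟨f1, f1', D1⟩ := duality K e u
  obtain ⟨f2, f2', D2⟩ := duality K e (twist K u)
  rw [Linf_twist_twist] at f2' D2
  obtain ⟨f3, f3', D3⟩ := duality K e.traceDual u
  rw [Basis.traceDual_traceDual] at f3' D3
  obtain ⟨f4, -, -⟩ := duality K e (shift u)
  have f5 : Module.Finite K ↥(L0 K e ⊓ Linf K u) := by
    rw [he, hu, B0K_inf_BinfK]
    infer_instance
  obtain ⟨g1, U1⟩ := chi_add (L0 K e) (L0 K e.traceDual) (Linf K u) (L0_le_traceDual e he)
  obtain ⟨g2, U2⟩ := chi_add' (L0 K e) (Linf K (shift u)) (Linf K u) (Linf_shift_le u)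
  obtain ⟨g3, U3⟩ := chi_add' (L0 K e) (Linf K (shift u)) (Linf K (twist K u))
    (Linf_shift_le_twist u hu)
  have a1 : finrank K ↥(L0 K e ⊓ Linf K u) = 1 := by
    rw [he, hu]; exact finrank_B0K_inf_BinfK K F
  have a0 : finrank K ↥(L0 K e ⊓ Linf K (shift u)) = 0 := by
    rw [L0_inf_Linf_shift e u he hu]; exact finrank_bot K F
  rw [Omega_eq e u he hu]
  refine ⟨f1', g1, g3, ?_⟩
  omega

end

end Fermat.Agent.S20.RRLite
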