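import Fermat.Agent.S20.RRLite.Bases
import Fermat.Agent.S20.LB.Radical

/-!
# RR-lite: Theorem A

`2 + ∑_{a ∈ T} (n - r_a) + (n - r_∞) ≤ 2 dim_K Omega + 2 n`.
-/

set_option autoImplicit false

namespace Fermat.Agent.S20.RRLite

open Polynomial Module

noncomputable section

variable (K F : Type*) [Field K] [Field F] [Algebra K F] [Algebra K[X] F] [Algebra (RatFunc K) F]
  [IsScalarTower K K[X] F] [IsScalarTower K[X] (RatFunc K) F] [IsScalarTower K (RatFunc K) F]

/-- Bounding `r_a` by an evaluation map whose kernel is nilpotent modulo `X - a`. -/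
theorem rFin_le (a : K) {V : Type*} [AddCommGroup V] [Module K V] [Module.Finite K V]
    (φ : ↥(B0K K F) →ₗ[K] V) (hφ : ∀ b : B0K K F, φ b = 0 → (b : F) ∈ Rad0 K F a) :
    rFin K F a ≤ finrank K V :=
  (relDim_le_of_ker_le (Rad0 K F a) (B0K K F) φ hφ).2

/-- Bounding `r_∞` by an evaluation map whose kernel is nilpotent modulo `X⁻¹`. -/
theorem rInf_le {V : Type*} [AddCommGroup V] [Module K V] [Module.Finite K V]
    (φ : ↥(BinfK K F) →ₗ[K] V) (hφ : ∀ b : BinfK K F, φ b = 0 → (b : F) ∈ RadInf K F) :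
    rInf K F ≤ finrank K V :=
  (relDim_le_of_ker_le (RadInf K F) (BinfK K F) φ hφ).2

omit [Algebra K[X] F] [Algebra (RatFunc K) F] [IsScalarTower K K[X] F]
  [IsScalarTower K[X] (RatFunc K) F] [IsScalarTower K (RatFunc K) F] in
/-- The relative dimension of the radical, as the dimension of a quotient ring. -/
theorem relDim_isNilMod_eq (A : Type*) [CommRing A] [Algebra K A] [Algebra A F]
    [IsScalarTower K A F] (π : A) (R BK : Submodule K F) (hB : ∀ b, b ∈ BK ↔ IsIntegral A b)
    (hR : ∀ b, b ∈ R ↔ IsNilMod F A π b) :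
    relDim R BK = finrank K (↥(integralClosure A F) ⧸
      ((Ideal.span {π}).map (algebraMap A (integralClosure A F))).radical) := by
  let ψ : ↥BK →ₗ[K] (↥(integralClosure A F) ⧸
      ((Ideal.span {π}).map (algebraMap A (integralClosure A F))).radical) :=
    { toFun := fun b => Ideal.Quotient.mk _ ⟨(b : F), (hB _).mp b.2⟩
      map_add' := fun b c => by
        rw [← map_add]; rfl
      map_smul' := fun c b => by
        have h : (⟨((c • b : BK) : F), (hB _).mp (c • b).2⟩ : integralClosure A F) =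
            c • (⟨(b : F), (hB _).mp b.2⟩ : integralClosure A F) := Subtype.ext rfl
        rw [RingHom.id_apply, h]
        rfl }
  refine relDim_eq_of_surjective R BK ψ ?_ ?_
  · intro q
    obtain ⟨b, rfl⟩ := Ideal.Quotient.mk_surjective q
    exact ⟨⟨(b : F), (hB _).mpr b.2⟩, rfl⟩
  · intro f
    change Ideal.Quotient.mk _ (⟨(f : F), (hB _).mp f.2⟩ : integralClosure A F) = 0 ↔ _
    rw [Ideal.Quotient.eq_zero_iff_mem, hR, isNilMod_iff, Ideal.map_span, Set.image_singleton]
    constructor
    · intro h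
      exact ⟨_, rfl, h⟩
    · rintro ⟨b', hb', h⟩
      have : b' = ⟨(f : F), (hB _).mp f.2⟩ := Subtype.ext hb'
      rwa [this] at h


theorem rFin_eq (a : K) : rFin K F a = finrank K (↥(integralClosure K[X] F) ⧸
    ((Ideal.span {X - C a}).map (algebraMap K[X] (integralClosure K[X] F))).radical) :=
  relDim_isNilMod_eq K F K[X] (X - C a) (Rad0 K F a) (B0K K F) (fun _ => Iff.rfl)
    (fun _ => Iff.rfl)

theorem rInf_eq : rInf K F = finrank K (↥(integralClosure (Oinf K) F) ⧸
    ((Ideal.span {XinvO K}).map (algebraMap (Oinf K) (integralClosure (Oinf K) F))).radical) :=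
  relDim_isNilMod_eq K F (Oinf K) (XinvO K) (RadInf K F) (BinfK K F) (fun _ => Iff.rfl)
    (fun _ => Iff.rfl)

/-! ### The uniformiser at infinity -/

omit [Algebra K F] [Algebra K[X] F] [Algebra (RatFunc K) F] [IsScalarTower K K[X] F]
  [IsScalarTower K[X] (RatFunc K) F] [IsScalarTower K (RatFunc K) F] in
theorem coe_XinvO : ((XinvO K : Oinf K) : RatFunc K) = (RatFunc.X)⁻¹ := rfl

omit [Algebra K F] [Algebra K[X] F] [Algebra (RatFunc K) F] [IsScalarTower K K[X] F]
  [IsScalarTower K[X] (RatFunc K) F] [IsScalarTower K (RatFunc K) F] in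
theorem XinvO_ne_zero : XinvO K ≠ 0 := by
  intro h
  have := congrArg (fun t : Oinf K => (t : RatFunc K)) h
  simp only [coe_XinvO, ZeroMemClass.coe_zero, inv_eq_zero] at this
  exact RatFunc.X_ne_zero this

omit [Algebra K F] [Algebra K[X] F] [Algebra (RatFunc K) F] [IsScalarTower K K[X] F]
  [IsScalarTower K[X] (RatFunc K) F] [IsScalarTower K (RatFunc K) F] in
theorem irreducible_XinvO : Irreducible (XinvO K) := by
  have hX : (RatFunc.X : RatFunc K)⁻¹ ≠ 0 := inv_ne_zero RatFunc.X_ne_zero
  have hordX : ordInf K (RatFunc.X : RatFunc K)⁻¹ = 1 := by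
    simpa using ordInf_X_inv_pow K 1
  rw [irreducible_iff]
  constructor
  · rw [isUnit_Oinf_iff]
    simp only [not_and]
    intro _
    rw [coe_XinvO, hordX]; norm_num
  · intro a b hab
    have hab' : (RatFunc.X : RatFunc K)⁻¹ = (a : RatFunc K) * (b : RatFunc K) :=
      congrArg (fun t : Oinf K => (t : RatFunc K)) hab
    have ha0 : (a : RatFunc K) ≠ 0 := by
      intro h; rw [h, zero_mul] at hab'; exact hX hab'
    have hb0 : (b : RatFunc K) ≠ 0 := by
      intro h; rw [h, mul_zero] at hab'; exact hX hab'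
    have h1 := ordInf_mul K ha0 hb0
    rw [← hab', hordX] at h1
    have h2 := (mem_Oinf_iff_ordInf K ha0).mp a.2
    have h3 := (mem_Oinf_iff_ordInf K hb0).mp b.2
    rw [isUnit_Oinf_iff, isUnit_Oinf_iff]
    by_cases h : ordInf K (a : RatFunc K) = 0
    · exact Or.inl ⟨ha0, h⟩
    · exact Or.inr ⟨hb0, by omega⟩

omit [Algebra K F] [Algebra K[X] F] [Algebra (RatFunc K) F] [IsScalarTower K K[X] F]
  [IsScalarTower K[X] (RatFunc K) F] [IsScalarTower K (RatFunc K) F] in
/-- The residue field of `Oinf K` is `K`. -/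
theorem exists_sub_mem_span_XinvO (a : Oinf K) :
    ∃ c : K, a - algebraMap K (Oinf K) c ∈ Ideal.span {XinvO K} := by
  refine ⟨(expInf K (a : RatFunc K)).coeff 0, ?_⟩
  set c := (expInf K (a : RatFunc K)).coeff 0 with hc
  have hd : RatFunc.X * ((a : RatFunc K) - RatFunc.C c) ∈ Oinf K := by
    have := (X_pow_mul_mem_Oinf_iff K 1 ((a : RatFunc K) - RatFunc.C c)).mpr (by
      intro m hm
      rw [map_sub, HahnSeries.coeff_sub, expInf_C, HahnSeries.C_apply]
      rcases lt_or_eq_of_le (show m ≤ 0 by push_cast at hm; omega) with h | h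
      · rw [a.2 m h, HahnSeries.coeff_single_of_ne (by omega), sub_zero]
      · subst h
        rw [HahnSeries.coeff_single_same, hc, sub_self])
    simpa using this
  rw [Ideal.mem_span_singleton']
  refine ⟨⟨_, hd⟩, ?_⟩
  apply Subtype.ext
  change RatFunc.X * ((a : RatFunc K) - RatFunc.C c) * (RatFunc.X)⁻¹ =
    (a : RatFunc K) - algebraMap K (RatFunc K) c
  rw [RatFunc.algebraMap_eq_C, mul_comm, ← mul_assoc, inv_mul_cancel₀ RatFunc.X_ne_zero, one_mul]

section Final

variable [FiniteDimensional (RatFunc K) F] [Algebra.IsSeparable (RatFunc K) F]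

variable {K F}

/-- The radical bound on the finite chart. -/
theorem sum_le_relDim_L0 {n : ℕ} (e : Basis (Fin n) (RatFunc K) F) (he : L0 K e = B0K K F)
    [Module.Finite K (↥(L0 K e.traceDual) ⧸ (L0 K e).submoduleOf (L0 K e.traceDual))]
    (T : Finset K) :
    ∑ a ∈ T, (finrank (RatFunc K) F - rFin K F a) ≤ relDim (L0 K e) (L0 K e.traceDual) := by
  classical
  have hmax : ∀ a ∈ T, (Ideal.span {(X - C a : K[X])}).IsMaximal := fun a _ =>
    PrincipalIdealRing.isMaximal_of_irreducible (Polynomial.irreducible_X_sub_C a)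
  have hdist : ∀ a ∈ T, ∀ b ∈ T, a ≠ b →
      Ideal.span {(X - C a : K[X])} ≠ Ideal.span {(X - C b : K[X])} := by
    intro a _ b _ hab h
    have h1 : (X - C b : K[X]) ∈ Ideal.span {(X - C a : K[X])} := by
      rw [h]; exact Ideal.mem_span_singleton_self _
    rw [Ideal.mem_span_singleton, Polynomial.dvd_iff_isRoot] at h1
    simp only [IsRoot.def, eval_sub, eval_X, eval_C] at h1
    exact hab (sub_eq_zero.mp h1)
  have hne : ∀ a ∈ T, (X - C a : K[X]) ≠ 0 := fun a _ => Polynomial.X_sub_C_ne_zero a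
  have hres : ∀ a ∈ T, ∀ p : K[X], ∃ c : K, p - algebraMap K K[X] c ∈
      Ideal.span {(X - C a : K[X])} := by
    intro a _ p
    refine ⟨p.eval a, ?_⟩
    rw [Ideal.mem_span_singleton, Polynomial.dvd_iff_isRoot]
    simp
  have hM : ∀ x : F, x ∈ L0 K e ↔ ∃ b : integralClosure K[X] F,
      algebraMap (integralClosure K[X] F) F b = x := by
    intro x
    rw [he, mem_B0K]
    constructor
    · intro hx
      exact ⟨⟨x, hx⟩, rfl⟩
    · rintro ⟨b, rfl⟩
      exact b.2
  have hM2 : ∀ a ∈ T, ∀ g : integralClosure K[X] F,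
      g ∈ ((Ideal.span {(X - C a : K[X])}).map
        (algebraMap K[X] (integralClosure K[X] F))).radical →
      (algebraMap K[X] F (X - C a))⁻¹ * algebraMap (integralClosure K[X] F) F g
        ∈ L0 K e.traceDual := by
    intro a ha g hg
    rw [mem_L0]
    intro i
    rw [traceDual_repr]
    have hi : IsIntegral K[X] (e i) := by
      rw [← mem_B0K, ← he]; exact basis_mem_L0 K e i
    have := hmax a ha
    exact LB.Radical.trace_inv_mul_mem K[X] (RatFunc K) F (integralClosure K[X] F)
      (Ideal.span {(X - C a : K[X])}) (X - C a) rfl g hg ⟨e i, hi⟩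
  have := LB.Radical.sum_le_finrank_quotient K K[X] (RatFunc K) F (integralClosure K[X] F) T
    (fun a => X - C a) hmax hdist hne hres (L0 K e) (L0 K e.traceDual) hM hM2
  simp_rw [rFin_eq]
  exact this

/-- The radical bound on the chart at infinity. -/
theorem le_relDim_Linf {m : ℕ} (u : Basis (Fin m) (RatFunc K) F) (hu : Linf K u = BinfK K F)
    [Module.Finite K (↥(Linf K (twist K u)) ⧸
      (Linf K (shift u)).submoduleOf (Linf K (twist K u)))] :
    finrank (RatFunc K) F - rInf K F ≤ relDim (Linf K (shift u)) (Linf K (twist K u)) := by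
  classical
  -- scaling by `X⁻²`
  let ψ : F →ₗ[K] F :=
    (((RatFunc.X : RatFunc K)⁻¹ ^ 2) • (LinearMap.id : F →ₗ[RatFunc K] F)).restrictScalars K
  have hψ : ∀ f, ψ f = ((RatFunc.X : RatFunc K)⁻¹ ^ 2) • f := fun f => rfl
  have hXX : (RatFunc.X : RatFunc K) ^ 2 * (RatFunc.X)⁻¹ ^ 2 = 1 := by
    rw [← mul_pow, mul_inv_cancel₀ RatFunc.X_ne_zero, one_pow]
  obtain ⟨hfin, hle⟩ := relDim_le_relDim (Linf K u) (Linf K u.traceDual) (Linf K (shift u))
    (Linf K (twist K u)) ψ (by
      intro f hf
      rw [mem_Linf] at hf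
      rw [hψ, mem_Linf_twist]
      intro i
      rw [smul_mul_assoc, map_smul, smul_eq_mul, ← mul_assoc, hXX, one_mul, ← traceDual_repr]
      exact hf i) (by
      intro f _ hf
      rw [hψ, mem_Linf_shift] at hf
      rw [mem_Linf]
      intro i
      have := hf i
      rwa [map_smul, Finsupp.smul_apply, smul_eq_mul, ← mul_assoc, hXX, one_mul] at this)
  have hmax : ∀ t ∈ ({()} : Finset Unit), (Ideal.span {XinvO K}).IsMaximal := fun _ _ =>
    PrincipalIdealRing.isMaximal_of_irreducible (irreducible_XinvO K)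
  have hM : ∀ x : F, x ∈ Linf K u ↔ ∃ b : integralClosure (Oinf K) F,
      algebraMap (integralClosure (Oinf K) F) F b = x := by
    intro x
    rw [hu, mem_BinfK]
    constructor
    · intro hx
      exact ⟨⟨x, hx⟩, rfl⟩
    · rintro ⟨b, rfl⟩
      exact b.2
  have hM2 : ∀ t ∈ ({()} : Finset Unit), ∀ g : integralClosure (Oinf K) F,
      g ∈ ((Ideal.span {XinvO K}).map
        (algebraMap (Oinf K) (integralClosure (Oinf K) F))).radical →
      (algebraMap (Oinf K) F (XinvO K))⁻¹ * algebraMap (integralClosure (Oinf K) F) F g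
        ∈ Linf K u.traceDual := by
    intro t ht g hg
    rw [mem_Linf]
    intro i
    rw [traceDual_repr]
    have hi : IsIntegral (Oinf K) (u i) := by
      rw [← mem_BinfK, ← hu]; exact basis_mem_Linf K u i
    have := hmax t ht
    obtain ⟨y, hy⟩ := LB.Radical.trace_inv_mul_mem (Oinf K) (RatFunc K) F
      (integralClosure (Oinf K) F) (Ideal.span {XinvO K}) (XinvO K) rfl g hg ⟨u i, hi⟩
    have hy' : Algebra.trace (RatFunc K) F ((algebraMap (Oinf K) F (XinvO K))⁻¹ *
        algebraMap (integralClosure (Oinf K) F) F g * u i) = (y : RatFunc K) := hy.symm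
    rw [hy']
    exact y.2
  have := LB.Radical.sum_le_finrank_quotient K (Oinf K) (RatFunc K) F
    (integralClosure (Oinf K) F) ({()} : Finset Unit) (fun _ => XinvO K) hmax
    (fun s _ t _ hst => absurd (Subsingleton.elim s t) hst) (fun _ _ => XinvO_ne_zero K)
    (fun _ _ a => exists_sub_mem_span_XinvO K a) (Linf K u) (Linf K u.traceDual) hM hM2
  rw [Finset.sum_singleton] at this
  rw [rInf_eq]
  exact this.trans hle

variable (K F)

/-- **THEOREM A** (RR-lite lower bound). -/
theorem theoremA [IsAlgClosed K] (T : Finset K) :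
    Module.Finite K (Omega K F) ∧
    2 + ∑ a ∈ T, (finrank (RatFunc K) F - rFin K F a) + (finrank (RatFunc K) F - rInf K F)
      ≤ 2 * finrank K (Omega K F) + 2 * finrank (RatFunc K) F := by
  obtain ⟨n, e, he⟩ := exists_basis_B0 K F
  obtain ⟨m, u, hu⟩ := exists_basis_Binf K F
  obtain ⟨hΩ, g1, g3, hid⟩ := main_identity e u he hu
  have hm : finrank (RatFunc K) F = m := by
    rw [Module.finrank_eq_card_basis u, Fintype.card_fin]
  have hN2 := relDim_shift_le u
  rw [Fintype.card_fin] at hN2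
  have h0 := sum_le_relDim_L0 e he T
  have hinf := le_relDim_Linf u hu
  refine ⟨hΩ, ?_⟩
  omega

end Final

end

end Fermat.Agent.S20.RRLite
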