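import Fermat.Agent.S20.RRLite.Lattice

/-!
# RR-lite, part 5: duality for a pair of lattices

For bases `e`, `u` of `F` over `RatFunc K`:
`F ⧸ (L0 e ⊔ Linf u)` is finite-dimensional over `K`, and its dual is identified, by the residue
pairing, with `L0 e.traceDual ⊓ Linf (twist u)`.
-/

set_option autoImplicit false

namespace Fermat.Agent.S20.RRLite

open Polynomial Module

noncomputable section

variable (K : Type*) {F : Type*} [Field K] [Field F] [Algebra K F] [Algebra K[X] F]
  [Algebra (RatFunc K) F] [IsScalarTower K K[X] F] [IsScalarTower K[X] (RatFunc K) F]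
  [IsScalarTower K (RatFunc K) F]
  [FiniteDimensional (RatFunc K) F] [Algebra.IsSeparable (RatFunc K) F]

variable {ι ι' : Type*} [Fintype ι] [DecidableEq ι] [Fintype ι'] [DecidableEq ι']

omit [Algebra K[X] F] [IsScalarTower K K[X] F] [IsScalarTower K[X] (RatFunc K) F]
  [FiniteDimensional (RatFunc K) F] [Algebra.IsSeparable (RatFunc K) F] [DecidableEq ι]
  [DecidableEq ι'] in
theorem exists_bound (e : Basis ι (RatFunc K) F) (u : Basis ι' (RatFunc K) F) :
    ∃ b : ℕ, ∀ i, ((RatFunc.X : RatFunc K)⁻¹ ^ b) • e i ∈ Linf K u := by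
  choose b hb using fun ij : ι × ι' => exists_X_inv_pow_mul_mem K (u.repr (e ij.1) ij.2)
  refine ⟨∑ ij, b ij, fun i => ?_⟩
  rw [mem_Linf]
  intro j
  rw [map_smul, Finsupp.smul_apply, smul_eq_mul]
  exact X_inv_pow_mul_mem_of_le K
    (Finset.single_le_sum (f := b) (fun _ _ => Nat.zero_le _) (Finset.mem_univ (i, j))) (hb (i, j))

omit [FiniteDimensional (RatFunc K) F] [Algebra.IsSeparable (RatFunc K) F] [Fintype ι']
  [DecidableEq ι'] in
/-- The key decomposition: modulo `L0 e + Linf u`, every `f` is a combination of the finitely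
many `X⁻ᵏ e_i`, `1 ≤ k < b`, with coefficients given by residues. -/
theorem sub_mem_sup (e : Basis ι (RatFunc K) F) (u : Basis ι' (RatFunc K) F) (b : ℕ)
    (hb : ∀ i, ((RatFunc.X : RatFunc K)⁻¹ ^ b) • e i ∈ Linf K u) (f : F) :
    f - ∑ i, ∑ k ∈ Finset.Ico 1 b,
      (res K (RatFunc.X ^ (k - 1) * e.repr f i)) • (((RatFunc.X : RatFunc K)⁻¹ ^ k) • e i)
      ∈ L0 K e ⊔ Linf K u := by
  choose p hp using fun i => exists_polynomial_sub_mem K (e.repr f i)
  -- the tails
  set t : ι → RatFunc K := fun i =>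
    (e.repr f i - algebraMap K[X] (RatFunc K) (p i)) - ∑ k ∈ Finset.Ico 1 b,
      RatFunc.C (res K (RatFunc.X ^ (k - 1) * (e.repr f i - algebraMap K[X] (RatFunc K) (p i))))
        * (RatFunc.X)⁻¹ ^ k with ht
  have htmem : ∀ i, RatFunc.X ^ b * t i ∈ Oinf K := fun i => X_pow_mul_sub_mem K _ (hp i) b
  have hres : ∀ i k, res K (RatFunc.X ^ (k - 1) * (e.repr f i - algebraMap K[X] (RatFunc K) (p i)))
      = res K (RatFunc.X ^ (k - 1) * e.repr f i) := by
    intro i k
    rw [mul_sub, map_sub]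
    have : (RatFunc.X : RatFunc K) ^ (k - 1) * algebraMap K[X] (RatFunc K) (p i) =
        algebraMap K[X] (RatFunc K) (X ^ (k - 1) * p i) := by
      rw [map_mul, map_pow, RatFunc.algebraMap_X]
    rw [this, res_algebraMap, sub_zero]
  have key : f - ∑ i, ∑ k ∈ Finset.Ico 1 b,
      (res K (RatFunc.X ^ (k - 1) * e.repr f i)) • (((RatFunc.X : RatFunc K)⁻¹ ^ k) • e i) =
      (∑ i, algebraMap K[X] (RatFunc K) (p i) • e i) + ∑ i, t i • e i := by
    rw [sub_eq_iff_eq_add, ← Finset.sum_add_distrib, ← Finset.sum_add_distrib]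
    conv_lhs => rw [← e.sum_repr f]
    refine Finset.sum_congr rfl fun i _ => ?_
    rw [← add_smul, Finset.sum_congr rfl (fun k _ => by
      rw [← algebraMap_smul (RatFunc K) (res K (RatFunc.X ^ (k - 1) * e.repr f i))
        (((RatFunc.X : RatFunc K)⁻¹ ^ k) • e i), smul_smul, RatFunc.algebraMap_eq_C,
        ← hres i k]), ← Finset.sum_smul, ← add_smul]
    congr 1
    simp only [ht]
    ring
  rw [key]
  refine Submodule.add_mem _ (Submodule.mem_sup_left ?_) (Submodule.mem_sup_right ?_)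
  · exact Submodule.sum_mem _ fun i _ => smul_mem_L0 K (basis_mem_L0 K e i) (p i)
  · refine Submodule.sum_mem _ fun i _ => ?_
    have : t i • e i = (RatFunc.X ^ b * t i) • (((RatFunc.X : RatFunc K)⁻¹ ^ b) • e i) := by
      rw [smul_smul, mul_right_comm, ← mul_pow, mul_inv_cancel₀ RatFunc.X_ne_zero, one_pow,
        one_mul]
    rw [this]
    exact smul_mem_Linf K (hb i) (htmem i)

/-- `F ⧸ (L0 e + Linf u)` is finite-dimensional. -/
theorem finite_quotient (e : Basis ι (RatFunc K) F) (u : Basis ι' (RatFunc K) F) :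
    Module.Finite K (F ⧸ (L0 K e ⊔ Linf K u)) := by
  classical
  obtain ⟨b, hb⟩ := exists_bound K e u
  rw [Module.finite_def]
  refine ⟨(Finset.univ ×ˢ Finset.Ico 1 b).image (fun ik : ι × ℕ =>
    (L0 K e ⊔ Linf K u).mkQ (((RatFunc.X : RatFunc K)⁻¹ ^ ik.2) • e ik.1)), ?_⟩
  rw [eq_top_iff]
  rintro q -
  obtain ⟨f, rfl⟩ := (L0 K e ⊔ Linf K u).mkQ_surjective q
  have h := sub_mem_sup K e u b hb f
  rw [← Submodule.Quotient.mk_eq_zero, Submodule.Quotient.mk_sub, sub_eq_zero] at h
  rw [Submodule.mkQ_apply, h, ← Submodule.mkQ_apply, map_sum]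
  refine Submodule.sum_mem _ fun i _ => ?_
  rw [map_sum]
  refine Submodule.sum_mem _ fun k hk => ?_
  rw [map_smul]
  refine Submodule.smul_mem _ _ (Submodule.subset_span ?_)
  rw [Finset.coe_image]
  exact ⟨(i, k), by simpa using hk, rfl⟩

/-- Every functional vanishing on `L0 e + Linf u` is given by the residue pairing. -/
theorem exists_pairing_eq (e : Basis ι (RatFunc K) F) (u : Basis ι' (RatFunc K) F)
    (lam : Module.Dual K F) (h0 : ∀ f ∈ L0 K e, lam f = 0) (hinf : ∀ f ∈ Linf K u, lam f = 0) :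
    ∃ g : F, ∀ f, pairing K g f = lam f := by
  obtain ⟨b, hb⟩ := exists_bound K e u
  refine ⟨∑ i, (∑ k ∈ Finset.Ico 1 b,
    RatFunc.C (lam (((RatFunc.X : RatFunc K)⁻¹ ^ k) • e i)) * RatFunc.X ^ (k - 1)) •
      e.traceDual i, fun f => ?_⟩
  -- the right hand side
  have hlam : lam f = ∑ i, ∑ k ∈ Finset.Ico 1 b,
      res K (RatFunc.X ^ (k - 1) * e.repr f i) * lam (((RatFunc.X : RatFunc K)⁻¹ ^ k) • e i) := by
    have h := sub_mem_sup K e u b hb f
    obtain ⟨m, hm, n, hn, hmn⟩ := Submodule.mem_sup.mp h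
    have h1 : lam (f - ∑ i, ∑ k ∈ Finset.Ico 1 b,
      (res K (RatFunc.X ^ (k - 1) * e.repr f i)) • (((RatFunc.X : RatFunc K)⁻¹ ^ k) • e i)) = 0 := by
      rw [← hmn, map_add, h0 m hm, hinf n hn, add_zero]
    rw [map_sub, sub_eq_zero] at h1
    rw [h1, map_sum]
    refine Finset.sum_congr rfl fun i _ => ?_
    rw [map_sum]
    refine Finset.sum_congr rfl fun k _ => ?_
    rw [map_smul, smul_eq_mul]
  rw [hlam, pairing_apply, Finset.sum_mul, map_sum, map_sum]
  refine Finset.sum_congr rfl fun i _ => ?_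
  rw [smul_mul_assoc, map_smul, smul_eq_mul, mul_comm (e.traceDual i) f, ← repr_eq_trace,
    Finset.sum_mul, map_sum]
  refine Finset.sum_congr rfl fun k _ => ?_
  rw [mul_assoc, ← RatFunc.algebraMap_eq_C, ← Algebra.smul_def, map_smul, smul_eq_mul, mul_comm]

/-- **Duality** for the pair of lattices `L0 e`, `Linf u`. -/
theorem duality (e : Basis ι (RatFunc K) F) (u : Basis ι' (RatFunc K) F) :
    Module.Finite K (F ⧸ (L0 K e ⊔ Linf K u)) ∧
    Module.Finite K ↥(L0 K e.traceDual ⊓ Linf K (twist K u)) ∧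
    finrank K ↥(L0 K e.traceDual ⊓ Linf K (twist K u)) = finrank K (F ⧸ (L0 K e ⊔ Linf K u)) := by
  have hfin := finite_quotient K e u
  have hmem : ∀ g : F, g ∈ L0 K e.traceDual ⊓ Linf K (twist K u) ↔
      pairing K g ∈ (L0 K e ⊔ Linf K u).dualAnnihilator := by
    intro g
    rw [Submodule.dualAnnihilator_sup_eq, Submodule.mem_inf, Submodule.mem_inf,
      Submodule.mem_dualAnnihilator, Submodule.mem_dualAnnihilator, mem_L0_traceDual_iff,
      mem_Linf_twist_iff]
  -- the restricted pairing map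
  let Ψ : ↥(L0 K e.traceDual ⊓ Linf K (twist K u)) →ₗ[K] ↥(L0 K e ⊔ Linf K u).dualAnnihilator :=
    ((pairing K (F := F)).domRestrict _).codRestrict _ (fun g => (hmem g).mp g.2)
  have hΨ : Function.Bijective Ψ := by
    constructor
    · refine (injective_iff_map_eq_zero Ψ).mpr fun g hg => ?_
      apply Subtype.ext
      apply eq_zero_of_pairing_eq_zero K
      intro f
      have := congrArg (fun φ : ↥(L0 K e ⊔ Linf K u).dualAnnihilator => (φ : Module.Dual K F) f) hg
      exact this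
    · rintro ⟨lam, hlam⟩
      rw [Submodule.dualAnnihilator_sup_eq, Submodule.mem_inf, Submodule.mem_dualAnnihilator,
        Submodule.mem_dualAnnihilator] at hlam
      obtain ⟨g, hg⟩ := exists_pairing_eq K e u lam hlam.1 hlam.2
      have hg' : pairing K g = lam := LinearMap.ext hg
      have hgmem : g ∈ L0 K e.traceDual ⊓ Linf K (twist K u) := by
        rw [hmem, hg', Submodule.dualAnnihilator_sup_eq, Submodule.mem_inf,
          Submodule.mem_dualAnnihilator, Submodule.mem_dualAnnihilator]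
        exact hlam
      exact ⟨⟨g, hgmem⟩, Subtype.ext hg'⟩
  let Ψe := (LinearEquiv.ofBijective Ψ hΨ).trans
    (Submodule.dualQuotEquivDualAnnihilator (L0 K e ⊔ Linf K u)).symm
  have hfin2 : Module.Finite K ↥(L0 K e.traceDual ⊓ Linf K (twist K u)) :=
    Module.Finite.equiv Ψe.symm
  refine ⟨hfin, hfin2, ?_⟩
  rw [Ψe.finrank_eq, Subspace.dual_finrank_eq]

end

end Fermat.Agent.S20.RRLite
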