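import Mathlib

/-!
# RR-lite, part 1: the point at infinity of the projective line

`expInf : RatFunc K →ₐ[K] LaurentSeries K` is the expansion at infinity (`X ↦ T⁻¹`),
`res` is the coefficient of `X⁻¹` (the residue at infinity up to sign), and `Oinf` is the
valuation ring at infinity, as a `K`-subalgebra of `RatFunc K`.
-/

set_option autoImplicit false

namespace Fermat.Agent.S20.RRLite

open Polynomial

noncomputable section

variable (K : Type*) [Field K]

/-- The ring map `K[X] → K((T))`, `X ↦ T⁻¹`. -/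
def polyInf : K[X] →+* LaurentSeries K :=
  Polynomial.eval₂RingHom (HahnSeries.C : K →+* LaurentSeries K)
    (HahnSeries.single (-1 : ℤ) (1 : K))

theorem polyInf_monomial (n : ℕ) (a : K) :
    polyInf K (monomial n a) = HahnSeries.single (-(n : ℤ)) a := by
  rw [polyInf, Polynomial.coe_eval₂RingHom, Polynomial.eval₂_monomial, HahnSeries.single_pow,
    one_pow, HahnSeries.C_apply, HahnSeries.single_mul_single]
  simp

theorem coeff_polyInf (p : K[X]) (k : ℕ) : (polyInf K p).coeff (-(k : ℤ)) = p.coeff k := by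
  induction p using Polynomial.induction_on' with
  | add p q hp hq => simp [hp, hq]
  | monomial n a =>
    rw [polyInf_monomial, Polynomial.coeff_monomial]
    by_cases h : n = k
    · subst h; simp
    · rw [if_neg h, HahnSeries.coeff_single_of_ne]
      intro h'; apply h; omega

theorem coeff_polyInf_of_pos (p : K[X]) (m : ℤ) (hm : 0 < m) : (polyInf K p).coeff m = 0 := by
  induction p using Polynomial.induction_on' with
  | add p q hp hq => simp [hp, hq]
  | monomial n a =>
    rw [polyInf_monomial, HahnSeries.coeff_single_of_ne]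
    omega

theorem polyInf_injective : Function.Injective (polyInf K) := by
  intro p q h
  ext k
  rw [← coeff_polyInf, ← coeff_polyInf, h]

/-- Expansion at infinity: the ring embedding `K(X) → K((T))` with `X ↦ T⁻¹`. -/
def expInf : RatFunc K →+* LaurentSeries K :=
  RatFunc.liftRingHom (polyInf K)
    (nonZeroDivisors_le_comap_nonZeroDivisors_of_injective _ (polyInf_injective K))

theorem expInf_injective : Function.Injective (expInf K) :=
  RatFunc.liftRingHom_injective _ (polyInf_injective K)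

theorem expInf_algebraMap (p : K[X]) :
    expInf K (algebraMap K[X] (RatFunc K) p) = polyInf K p :=
  RatFunc.liftRingHom_algebraMap _ _ _

theorem expInf_X : expInf K RatFunc.X = HahnSeries.single (-1 : ℤ) (1 : K) := by
  rw [← RatFunc.algebraMap_X, expInf_algebraMap, polyInf, Polynomial.coe_eval₂RingHom,
    Polynomial.eval₂_X]

theorem expInf_C (c : K) : expInf K (RatFunc.C c) = HahnSeries.C c := by
  rw [← RatFunc.algebraMap_C, expInf_algebraMap, polyInf, Polynomial.coe_eval₂RingHom,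
    Polynomial.eval₂_C]

theorem expInf_X_inv : expInf K (RatFunc.X)⁻¹ = HahnSeries.single (1 : ℤ) (1 : K) := by
  rw [map_inv₀, expInf_X]
  apply inv_eq_of_mul_eq_one_left
  rw [HahnSeries.single_mul_single]; simp

theorem expInf_X_pow (k : ℕ) :
    expInf K (RatFunc.X ^ k) = HahnSeries.single (-(k : ℤ)) (1 : K) := by
  rw [map_pow, expInf_X, HahnSeries.single_pow]; simp

theorem expInf_X_inv_pow (k : ℕ) :
    expInf K ((RatFunc.X)⁻¹ ^ k) = HahnSeries.single ((k : ℤ)) (1 : K) := by
  rw [map_pow, expInf_X_inv, HahnSeries.single_pow]; simp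

theorem coeff_expInf_X_pow_mul (k : ℕ) (h : RatFunc K) (m : ℤ) :
    (expInf K (RatFunc.X ^ k * h)).coeff m = (expInf K h).coeff (m + k) := by
  rw [map_mul, expInf_X_pow]
  have := HahnSeries.coeff_single_mul_add (r := (1 : K)) (x := expInf K h) (a := m + k)
    (b := -(k : ℤ))
  simpa using this

theorem coeff_expInf_X_inv_pow_mul (k : ℕ) (h : RatFunc K) (m : ℤ) :
    (expInf K ((RatFunc.X)⁻¹ ^ k * h)).coeff m = (expInf K h).coeff (m - k) := by
  rw [map_mul, expInf_X_inv_pow]
  have := HahnSeries.coeff_single_mul_add (r := (1 : K)) (x := expInf K h) (a := m - k)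
    (b := (k : ℤ))
  simpa using this

theorem coeff_expInf_C_mul (c : K) (h : RatFunc K) (m : ℤ) :
    (expInf K (RatFunc.C c * h)).coeff m = c * (expInf K h).coeff m := by
  rw [map_mul, expInf_C, HahnSeries.C_mul_eq_smul]
  simp

/-- The coefficient functionals of the expansion at infinity. -/
def coeffInf (m : ℤ) : RatFunc K →ₗ[K] K where
  toFun h := (expInf K h).coeff m
  map_add' x y := by simp
  map_smul' c x := by
    rw [Algebra.smul_def, RatFunc.algebraMap_eq_C, coeff_expInf_C_mul]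
    simp

theorem coeffInf_apply (m : ℤ) (h : RatFunc K) : coeffInf K m h = (expInf K h).coeff m := rfl

/-- The residue at infinity (up to sign): the coefficient of `X⁻¹`. -/
def res : RatFunc K →ₗ[K] K := coeffInf K 1

theorem res_apply (h : RatFunc K) : res K h = (expInf K h).coeff 1 := rfl

theorem res_algebraMap (p : K[X]) : res K (algebraMap K[X] (RatFunc K) p) = 0 := by
  rw [res_apply, expInf_algebraMap, coeff_polyInf_of_pos _ _ _ one_pos]

theorem res_X_pow_mul (k : ℕ) (h : RatFunc K) :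
    res K (RatFunc.X ^ k * h) = (expInf K h).coeff (1 + k) := by
  rw [res_apply, coeff_expInf_X_pow_mul]

theorem res_X_inv_pow_mul (k : ℕ) (h : RatFunc K) :
    res K ((RatFunc.X)⁻¹ ^ k * h) = (expInf K h).coeff (1 - k) := by
  rw [res_apply, coeff_expInf_X_inv_pow_mul]

/-- An element all of whose coefficients in positive degree (in `T = X⁻¹`) vanish is a
polynomial. -/
theorem exists_polynomial_of_coeff (h : RatFunc K) (hh : ∀ m : ℤ, 0 < m → (expInf K h).coeff m = 0) :
    ∃ p : K[X], algebraMap K[X] (RatFunc K) p = h := by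
  classical
  -- the support of `expInf h` is bounded below, say by `-d`
  obtain ⟨d, hd⟩ : ∃ d : ℕ, ∀ m : ℤ, m < -(d : ℤ) → (expInf K h).coeff m = 0 := by
    by_cases h0 : expInf K h = 0
    · exact ⟨0, fun m _ => by simp [h0]⟩
    · refine ⟨((expInf K h).order).natAbs, fun m hm => ?_⟩
      apply HahnSeries.coeff_eq_zero_of_lt_order
      omega
  refine ⟨∑ k ∈ Finset.range (d + 1), monomial k ((expInf K h).coeff (-(k : ℤ))), ?_⟩
  apply expInf_injective
  rw [expInf_algebraMap]
  ext m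
  rcases lt_trichotomy 0 m with hm | hm | hm
  · rw [coeff_polyInf_of_pos _ _ _ hm, hh m hm]
  · subst hm
    have := coeff_polyInf K (∑ k ∈ Finset.range (d + 1), monomial k ((expInf K h).coeff (-(k : ℤ)))) 0
    simp only [Nat.cast_zero, neg_zero] at this
    rw [this]
    simp [Polynomial.finsetSum_coeff, Polynomial.coeff_monomial]
  · obtain ⟨k, rfl⟩ : ∃ k : ℕ, m = -(k : ℤ) := ⟨m.natAbs, by omega⟩
    rw [coeff_polyInf]
    simp only [Polynomial.finsetSum_coeff, Polynomial.coeff_monomial]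
    by_cases hk : k < d + 1
    · simp [hk]
    · simp only [Finset.sum_ite_eq', Finset.mem_range, hk, if_false]
      rw [hd]
      omega

theorem exists_polynomial_of_res (h : RatFunc K)
    (hh : ∀ k : ℕ, res K (RatFunc.X ^ k * h) = 0) :
    ∃ p : K[X], algebraMap K[X] (RatFunc K) p = h := by
  apply exists_polynomial_of_coeff
  intro m hm
  obtain ⟨k, rfl⟩ : ∃ k : ℕ, m = 1 + (k : ℤ) := ⟨(m - 1).natAbs, by omega⟩
  rw [← res_X_pow_mul]
  exact hh k


/-! ### The order at infinity -/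

/-- The order of vanishing at infinity (`0` for the zero function, by convention). -/
def ordInf (h : RatFunc K) : ℤ := (expInf K h).order

theorem expInf_ne_zero {h : RatFunc K} (hh : h ≠ 0) : expInf K h ≠ 0 :=
  (map_ne_zero_iff _ (expInf_injective K)).mpr hh

theorem ordInf_mul {h₁ h₂ : RatFunc K} (h1 : h₁ ≠ 0) (h2 : h₂ ≠ 0) :
    ordInf K (h₁ * h₂) = ordInf K h₁ + ordInf K h₂ := by
  rw [ordInf, map_mul, HahnSeries.order_mul (expInf_ne_zero K h1) (expInf_ne_zero K h2)]
  rfl

theorem ordInf_one : ordInf K 1 = 0 := by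
  rw [ordInf, map_one, HahnSeries.order_one]

theorem ordInf_inv {h : RatFunc K} (hh : h ≠ 0) : ordInf K h⁻¹ = -ordInf K h := by
  have := ordInf_mul K hh (inv_ne_zero hh)
  rw [mul_inv_cancel₀ hh, ordInf_one] at this
  omega

theorem ordInf_X_inv_pow (k : ℕ) : ordInf K ((RatFunc.X)⁻¹ ^ k) = k := by
  rw [ordInf, expInf_X_inv_pow, HahnSeries.order_single one_ne_zero]

theorem ordInf_X_pow (k : ℕ) : ordInf K (RatFunc.X ^ k) = -(k : ℤ) := by
  rw [ordInf, expInf_X_pow, HahnSeries.order_single one_ne_zero]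

theorem forall_coeff_eq_zero_iff {h : RatFunc K} (hh : h ≠ 0) (D : ℤ) :
    (∀ m : ℤ, m < D → (expInf K h).coeff m = 0) ↔ D ≤ ordInf K h := by
  constructor
  · intro H
    by_contra hD
    exact (HahnSeries.coeff_order_eq_zero.not.mpr (expInf_ne_zero K hh)) (H _ (not_le.mp hD))
  · intro H m hm
    exact HahnSeries.coeff_eq_zero_of_lt_order (lt_of_lt_of_le hm H)

/-! ### The valuation ring at infinity -/

/-- The valuation ring at infinity, as a `K`-subalgebra of `K(X)`: the rational functions whose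
expansion at infinity has no pole. -/
def Oinf : Subalgebra K (RatFunc K) where
  carrier := {h | ∀ m : ℤ, m < 0 → (expInf K h).coeff m = 0}
  mul_mem' := by
    intro a b ha hb
    by_cases ha0 : a = 0
    · subst ha0; simp
    by_cases hb0 : b = 0
    · subst hb0; simp
    change ∀ m : ℤ, m < 0 → (expInf K a).coeff m = 0 at ha
    change ∀ m : ℤ, m < 0 → (expInf K b).coeff m = 0 at hb
    change ∀ m : ℤ, m < 0 → (expInf K (a * b)).coeff m = 0
    rw [forall_coeff_eq_zero_iff K ha0] at ha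
    rw [forall_coeff_eq_zero_iff K hb0] at hb
    rw [forall_coeff_eq_zero_iff K (mul_ne_zero ha0 hb0), ordInf_mul K ha0 hb0]
    omega
  add_mem' := by
    intro a b ha hb m hm
    rw [map_add, HahnSeries.coeff_add, ha m hm, hb m hm, add_zero]
  algebraMap_mem' := by
    intro c m hm
    rw [RatFunc.algebraMap_eq_C, expInf_C, HahnSeries.C_apply, HahnSeries.coeff_single_of_ne]
    omega

theorem mem_Oinf_iff {h : RatFunc K} :
    h ∈ Oinf K ↔ ∀ m : ℤ, m < 0 → (expInf K h).coeff m = 0 := Iff.rfl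

theorem mem_Oinf_iff_ordInf {h : RatFunc K} (hh : h ≠ 0) : h ∈ Oinf K ↔ 0 ≤ ordInf K h :=
  forall_coeff_eq_zero_iff K hh 0

theorem X_inv_pow_mem_Oinf (k : ℕ) : (RatFunc.X : RatFunc K)⁻¹ ^ k ∈ Oinf K := by
  rw [mem_Oinf_iff_ordInf K (pow_ne_zero _ (inv_ne_zero RatFunc.X_ne_zero)), ordInf_X_inv_pow]
  omega

theorem X_inv_mem_Oinf : (RatFunc.X : RatFunc K)⁻¹ ∈ Oinf K := by
  simpa using X_inv_pow_mem_Oinf K 1

/-- `X ^ k * h ∈ Oinf` iff the coefficients of `h` below `k` vanish. -/
theorem X_pow_mul_mem_Oinf_iff (k : ℕ) (h : RatFunc K) :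
    RatFunc.X ^ k * h ∈ Oinf K ↔ ∀ m : ℤ, m < k → (expInf K h).coeff m = 0 := by
  rw [mem_Oinf_iff]
  constructor
  · intro H m hm
    have := H (m - k) (by omega)
    rwa [coeff_expInf_X_pow_mul, sub_add_cancel] at this
  · intro H m hm
    rw [coeff_expInf_X_pow_mul]
    exact H _ (by omega)

theorem X_sq_mul_mem_Oinf_of_res (h : RatFunc K)
    (hh : ∀ k : ℕ, res K ((RatFunc.X)⁻¹ ^ k * h) = 0) : RatFunc.X ^ 2 * h ∈ Oinf K := by
  rw [X_pow_mul_mem_Oinf_iff]
  intro m hm
  obtain ⟨k, rfl⟩ : ∃ k : ℕ, m = 1 - (k : ℤ) := ⟨(1 - m).natAbs, by omega⟩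
  rw [← res_X_inv_pow_mul]
  exact hh k

theorem res_eq_zero_of_X_sq_mul_mem (h : RatFunc K) (hh : RatFunc.X ^ 2 * h ∈ Oinf K) :
    res K h = 0 := by
  rw [X_pow_mul_mem_Oinf_iff] at hh
  exact hh 1 (by norm_num)

/-- Every rational function is a polynomial plus a function vanishing at infinity. -/
theorem exists_polynomial_sub_mem (c : RatFunc K) :
    ∃ p : K[X], RatFunc.X * (c - algebraMap K[X] (RatFunc K) p) ∈ Oinf K := by
  classical
  obtain ⟨d, hd⟩ : ∃ d : ℕ, ∀ m : ℤ, m < -(d : ℤ) → (expInf K c).coeff m = 0 := by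
    by_cases h0 : expInf K c = 0
    · exact ⟨0, fun m _ => by simp [h0]⟩
    · refine ⟨((expInf K c).order).natAbs, fun m hm => ?_⟩
      apply HahnSeries.coeff_eq_zero_of_lt_order
      omega
  refine ⟨∑ k ∈ Finset.range (d + 1), monomial k ((expInf K c).coeff (-(k : ℤ))), ?_⟩
  have := (X_pow_mul_mem_Oinf_iff K 1
    (c - algebraMap K[X] (RatFunc K)
      (∑ k ∈ Finset.range (d + 1), monomial k ((expInf K c).coeff (-(k : ℤ)))))).mpr ?_
  · simpa using this
  intro m hm
  obtain ⟨k, rfl⟩ : ∃ k : ℕ, m = -(k : ℤ) := ⟨m.natAbs, by push_cast at hm; omega⟩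
  rw [map_sub, HahnSeries.coeff_sub, expInf_algebraMap, coeff_polyInf]
  simp only [Polynomial.finsetSum_coeff, Polynomial.coeff_monomial]
  by_cases hk : k < d + 1
  · simp [hk]
  · simp only [Finset.sum_ite_eq', Finset.mem_range, hk, if_false, sub_zero]
    rw [hd]
    omega

theorem exists_X_inv_pow_mul_mem (c : RatFunc K) :
    ∃ b : ℕ, (RatFunc.X)⁻¹ ^ b * c ∈ Oinf K := by
  by_cases hc : c = 0
  · exact ⟨0, by simp [hc, (Oinf K).zero_mem]⟩
  refine ⟨(ordInf K c).natAbs, ?_⟩
  rw [mem_Oinf_iff_ordInf K (mul_ne_zero (pow_ne_zero _ (inv_ne_zero RatFunc.X_ne_zero)) hc),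
    ordInf_mul K (pow_ne_zero _ (inv_ne_zero RatFunc.X_ne_zero)) hc, ordInf_X_inv_pow]
  omega

theorem X_inv_pow_mul_mem_of_le {c : RatFunc K} {b b' : ℕ} (hb : b ≤ b')
    (h : (RatFunc.X)⁻¹ ^ b * c ∈ Oinf K) : (RatFunc.X)⁻¹ ^ b' * c ∈ Oinf K := by
  obtain ⟨d, rfl⟩ := Nat.exists_eq_add_of_le hb
  have := (Oinf K).mul_mem (X_inv_pow_mem_Oinf K d) h
  rwa [← mul_assoc, ← pow_add, add_comm] at this

theorem expInf_C_mul_X_inv_pow (a : K) (k : ℕ) :
    expInf K (RatFunc.C a * (RatFunc.X)⁻¹ ^ k) = HahnSeries.single (k : ℤ) a := by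
  rw [map_mul, expInf_C, expInf_X_inv_pow, HahnSeries.C_apply, HahnSeries.single_mul_single]
  simp

/-- A function vanishing at infinity agrees with its Laurent polynomial of degree `< b` in
`X⁻¹` up to order `b`; the coefficients are residues. -/
theorem X_pow_mul_sub_mem (r : RatFunc K) (hr : RatFunc.X * r ∈ Oinf K) (b : ℕ) :
    RatFunc.X ^ b * (r - ∑ k ∈ Finset.Ico 1 b,
      RatFunc.C (res K (RatFunc.X ^ (k - 1) * r)) * (RatFunc.X)⁻¹ ^ k) ∈ Oinf K := by
  classical
  rw [X_pow_mul_mem_Oinf_iff]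
  have hr' := (X_pow_mul_mem_Oinf_iff K 1 r).mp (by simpa using hr)
  intro m hm
  rw [map_sub, HahnSeries.coeff_sub, map_sum, HahnSeries.coeff_sum]
  simp only [expInf_C_mul_X_inv_pow, HahnSeries.coeff_single]
  by_cases hm1 : m < 1
  · rw [hr' m (by exact_mod_cast hm1), zero_sub, neg_eq_zero]
    apply Finset.sum_eq_zero
    intro k hk
    rw [if_neg]
    have := (Finset.mem_Ico.mp hk).1
    omega
  · obtain ⟨j, rfl⟩ : ∃ j : ℕ, m = (j : ℤ) := ⟨m.natAbs, by omega⟩
    have hj : j ∈ Finset.Ico 1 b := Finset.mem_Ico.mpr ⟨by omega, by exact_mod_cast hm⟩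
    rw [Finset.sum_eq_single j]
    · rw [if_pos rfl, res_X_pow_mul]
      have : (1 : ℤ) + ((j - 1 : ℕ) : ℤ) = (j : ℤ) := by
        have := (Finset.mem_Ico.mp hj).1
        omega
      rw [this, sub_self]
    · intro k _ hk
      rw [if_neg]
      intro h'; apply hk; exact_mod_cast h'.symm
    · intro h'; exact absurd hj h'

theorem algebraMap_mem_Oinf_iff (p : K[X]) :
    algebraMap K[X] (RatFunc K) p ∈ Oinf K ↔ p = Polynomial.C (p.coeff 0) := by
  constructor
  · intro h
    ext k
    rcases Nat.eq_zero_or_pos k with rfl | hk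
    · simp
    · rw [Polynomial.coeff_C, if_neg (by omega), ← coeff_polyInf, ← expInf_algebraMap]
      exact h _ (by omega)
  · intro h
    rw [h, RatFunc.algebraMap_C, ← RatFunc.algebraMap_eq_C]
    exact (Oinf K).algebraMap_mem _


/-! ### `Oinf` is a discrete valuation ring with fraction field `K(X)` -/

instance instIsFractionRingOinf : IsFractionRing (Oinf K) (RatFunc K) := by
  apply IsFractionRing.of_field
  intro z
  by_cases hz : z ∈ Oinf K
  · exact ⟨⟨z, hz⟩, 1, by simp⟩
  · have hz0 : z ≠ 0 := fun h => hz (h ▸ (Oinf K).zero_mem)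
    have : z⁻¹ ∈ Oinf K := by
      rw [mem_Oinf_iff_ordInf K (inv_ne_zero hz0), ordInf_inv K hz0]
      rw [mem_Oinf_iff_ordInf K hz0] at hz
      omega
    exact ⟨1, ⟨z⁻¹, this⟩, by simp⟩

theorem isUnit_Oinf_iff (x : Oinf K) :
    IsUnit x ↔ (x : RatFunc K) ≠ 0 ∧ ordInf K (x : RatFunc K) = 0 := by
  constructor
  · intro hx
    obtain ⟨y, hy⟩ := hx.exists_right_inv
    have hy' : (x : RatFunc K) * (y : RatFunc K) = 1 := by
      have := congrArg (fun t : Oinf K => (t : RatFunc K)) hy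
      simpa using this
    have hx0 : (x : RatFunc K) ≠ 0 := left_ne_zero_of_mul_eq_one hy'
    have hy0 : (y : RatFunc K) ≠ 0 := right_ne_zero_of_mul_eq_one hy'
    refine ⟨hx0, ?_⟩
    have h1 := ordInf_mul K hx0 hy0
    rw [hy', ordInf_one] at h1
    have h2 := (mem_Oinf_iff_ordInf K hx0).mp x.2
    have h3 := (mem_Oinf_iff_ordInf K hy0).mp y.2
    omega
  · rintro ⟨hx0, hx⟩
    have : (x : RatFunc K)⁻¹ ∈ Oinf K := by
      rw [mem_Oinf_iff_ordInf K (inv_ne_zero hx0), ordInf_inv K hx0]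
      omega
    refine IsUnit.of_mul_eq_one ⟨(x : RatFunc K)⁻¹, this⟩ ?_
    apply Subtype.ext
    simp [hx0]

theorem hasUnitMulPowIrreducibleFactorization_Oinf :
    IsDiscreteValuationRing.HasUnitMulPowIrreducibleFactorization (Oinf K) := by
  have hX : (RatFunc.X : RatFunc K)⁻¹ ≠ 0 := inv_ne_zero RatFunc.X_ne_zero
  have hordX : ordInf K (RatFunc.X : RatFunc K)⁻¹ = 1 := by
    simpa using ordInf_X_inv_pow K 1
  refine ⟨⟨(RatFunc.X)⁻¹, X_inv_mem_Oinf K⟩, ?_, ?_⟩
  · rw [irreducible_iff]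
    constructor
    · rw [isUnit_Oinf_iff]
      simp only [not_and]
      intro _
      rw [hordX]; norm_num
    · intro a b hab
      have hab' : (RatFunc.X : RatFunc K)⁻¹ = (a : RatFunc K) * (b : RatFunc K) := by
        have := congrArg (fun t : Oinf K => (t : RatFunc K)) hab
        simpa using this
      have ha0 : (a : RatFunc K) ≠ 0 := by
        intro h; rw [h, zero_mul] at hab'; exact hX hab'
      have hb0 : (b : RatFunc K) ≠ 0 := by
        intro h; rw [h, mul_zero] at hab'; exact hX hab'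
      have h1 := ordInf_mul K ha0 hb0
      rw [← hab', hordX] at h1
      have h2 := (mem_Oinf_iff_ordInf K ha0).mp a.2
      have h3 := (mem_Oinf_iff_ordInf K hb0).mp b.2
      rw [isUnit_Oinf_iff, isUnit_Oinf_iff]
      by_cases h : ordInf K (a : RatFunc K) = 0
      · exact Or.inl ⟨ha0, h⟩
      · exact Or.inr ⟨hb0, by omega⟩
  · intro x hx
    have hx0 : (x : RatFunc K) ≠ 0 := fun h => hx (Subtype.ext h)
    have hord := (mem_Oinf_iff_ordInf K hx0).mp x.2
    obtain ⟨n, hn⟩ : ∃ n : ℕ, ordInf K (x : RatFunc K) = n := ⟨_, (Int.toNat_of_nonneg hord).symm⟩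
    have hXn : (RatFunc.X : RatFunc K) ^ n ≠ 0 := pow_ne_zero _ RatFunc.X_ne_zero
    have hu : (x : RatFunc K) * RatFunc.X ^ n ∈ Oinf K := by
      rw [mem_Oinf_iff_ordInf K (mul_ne_zero hx0 hXn), ordInf_mul K hx0 hXn, ordInf_X_pow]
      omega
    have hunit : IsUnit (⟨(x : RatFunc K) * RatFunc.X ^ n, hu⟩ : Oinf K) := by
      rw [isUnit_Oinf_iff]
      refine ⟨mul_ne_zero hx0 hXn, ?_⟩
      change ordInf K ((x : RatFunc K) * RatFunc.X ^ n) = 0
      rw [ordInf_mul K hx0 hXn, ordInf_X_pow]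
      omega
    refine ⟨n, ?_⟩
    refine ⟨hunit.unit, ?_⟩
    apply Subtype.ext
    simp only [IsUnit.unit_spec, MulMemClass.coe_mul, SubmonoidClass.coe_pow]
    rw [mul_comm, mul_assoc, ← mul_pow, mul_inv_cancel₀ RatFunc.X_ne_zero, one_pow, mul_one]

instance instIsDiscreteValuationRingOinf : IsDiscreteValuationRing (Oinf K) :=
  IsDiscreteValuationRing.ofHasUnitMulPowIrreducibleFactorization
    (hasUnitMulPowIrreducibleFactorization_Oinf K)

/-- An element of `K(X)` that is integral over `Oinf` lies in `Oinf`. -/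
theorem mem_Oinf_of_isIntegral {z : RatFunc K} (hz : IsIntegral (Oinf K) z) : z ∈ Oinf K := by
  obtain ⟨y, hy⟩ := IsIntegrallyClosed.isIntegral_iff.mp hz
  rw [← hy]
  exact y.2

end

end Fermat.Agent.S20.RRLite
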