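import Fermat.Agent.S20.RRLite.Infinity

/-!
# RR-lite: the valuation ring at infinity in terms of degrees

`c ∈ Oinf K ↔ natDegree (num c) ≤ natDegree (denom c)`.
-/

set_option autoImplicit false

namespace Fermat.Agent.S20.RRLite

open Polynomial

noncomputable section

variable (K : Type*) [Field K]

theorem ordInf_algebraMap {p : K[X]} (hp : p ≠ 0) :
    ordInf K (algebraMap K[X] (RatFunc K) p) = -(p.natDegree : ℤ) := by
  have hp' : algebraMap K[X] (RatFunc K) p ≠ 0 := by
    rwa [Ne, map_eq_zero_iff _ (IsFractionRing.injective K[X] (RatFunc K))]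
  apply le_antisymm
  · rw [ordInf]
    apply HahnSeries.order_le_of_coeff_ne_zero
    rw [expInf_algebraMap, coeff_polyInf]
    exact Polynomial.leadingCoeff_ne_zero.mpr hp
  · rw [← forall_coeff_eq_zero_iff K hp']
    intro m hm
    obtain ⟨k, rfl⟩ : ∃ k : ℕ, m = -(k : ℤ) := ⟨m.natAbs, by omega⟩
    rw [expInf_algebraMap, coeff_polyInf]
    exact Polynomial.coeff_eq_zero_of_natDegree_lt (by omega)

theorem ordInf_div {p q : K[X]} (hp : p ≠ 0) (hq : q ≠ 0) :
    ordInf K (algebraMap K[X] (RatFunc K) p / algebraMap K[X] (RatFunc K) q) =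
      (q.natDegree : ℤ) - p.natDegree := by
  have hp' : algebraMap K[X] (RatFunc K) p ≠ 0 := by
    rwa [Ne, map_eq_zero_iff _ (IsFractionRing.injective K[X] (RatFunc K))]
  have hq' : algebraMap K[X] (RatFunc K) q ≠ 0 := by
    rwa [Ne, map_eq_zero_iff _ (IsFractionRing.injective K[X] (RatFunc K))]
  rw [div_eq_mul_inv, ordInf_mul K hp' (inv_ne_zero hq'), ordInf_inv K hq',
    ordInf_algebraMap K hp, ordInf_algebraMap K hq]
  ring

/-- A quotient of polynomials lies in the valuation ring at infinity iff the degree of the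
numerator is at most the degree of the denominator. -/
theorem div_mem_Oinf_iff {p q : K[X]} (hp : p ≠ 0) (hq : q ≠ 0) :
    algebraMap K[X] (RatFunc K) p / algebraMap K[X] (RatFunc K) q ∈ Oinf K ↔
      p.natDegree ≤ q.natDegree := by
  have hp' : algebraMap K[X] (RatFunc K) p ≠ 0 := by
    rwa [Ne, map_eq_zero_iff _ (IsFractionRing.injective K[X] (RatFunc K))]
  have hq' : algebraMap K[X] (RatFunc K) q ≠ 0 := by
    rwa [Ne, map_eq_zero_iff _ (IsFractionRing.injective K[X] (RatFunc K))]
  rw [mem_Oinf_iff_ordInf K (div_ne_zero hp' hq'), ordInf_div K hp hq]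
  omega

/-- Membership in the valuation ring at infinity in terms of numerator and denominator. -/
theorem mem_Oinf_iff_natDegree (c : RatFunc K) :
    c ∈ Oinf K ↔ c.num.natDegree ≤ c.denom.natDegree := by
  by_cases hc : c = 0
  · subst hc
    simp [(Oinf K).zero_mem]
  · have hnum : c.num ≠ 0 := RatFunc.num_ne_zero hc
    have hden : c.denom ≠ 0 := RatFunc.denom_ne_zero c
    conv_lhs => rw [← RatFunc.num_div_denom c]
    exact div_mem_Oinf_iff K hnum hden

/-- Every element of the valuation ring at infinity is `p / q` with `deg p ≤ deg q`. -/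
theorem exists_div_of_mem_Oinf {c : RatFunc K} (hc : c ∈ Oinf K) :
    ∃ p q : K[X], q ≠ 0 ∧ p.natDegree ≤ q.natDegree ∧
      c = algebraMap K[X] (RatFunc K) p / algebraMap K[X] (RatFunc K) q :=
  ⟨c.num, c.denom, RatFunc.denom_ne_zero c, (mem_Oinf_iff_natDegree K c).mp hc,
    (RatFunc.num_div_denom c).symm⟩

end

end Fermat.Agent.S20.RRLite
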