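import Fermat.Agent.S20.RRLite.Defs

/-!
# RR-lite, part 4: lattices on the two charts and the residue pairing

For a basis `e` of `F` over `E = RatFunc K`, `L0 K e` is the `K[X]`-lattice spanned by `e` and
`Linf K e` the `Oinf K`-lattice spanned by `e`, both as `K`-subspaces of `F`.
The pairing is `(g, f) ↦ res (trace (g * f))`.
-/

set_option autoImplicit false

namespace Fermat.Agent.S20.RRLite

open Polynomial Module

noncomputable section

variable (K : Type*) {F : Type*} [Field K] [Field F] [Algebra K F] [Algebra K[X] F]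
  [Algebra (RatFunc K) F] [IsScalarTower K K[X] F] [IsScalarTower K[X] (RatFunc K) F]
  [IsScalarTower K (RatFunc K) F]

variable {ι : Type*}

/-- The `K[X]`-lattice spanned by a basis, as a `K`-subspace. -/
def L0 (e : Basis ι (RatFunc K) F) : Submodule K F :=
  (Submodule.span K[X] (Set.range e)).restrictScalars K

/-- The `Oinf K`-lattice spanned by a basis, as a `K`-subspace. -/
def Linf (u : Basis ι (RatFunc K) F) : Submodule K F :=
  (Submodule.span (Oinf K) (Set.range u)).restrictScalars K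

omit [IsScalarTower K (RatFunc K) F] in
theorem mem_L0 {e : Basis ι (RatFunc K) F} {f : F} :
    f ∈ L0 K e ↔ ∀ i, e.repr f i ∈ Set.range (algebraMap K[X] (RatFunc K)) := by
  rw [L0, Submodule.restrictScalars_mem]
  exact Basis.mem_span_iff_repr_mem K[X] e f

omit [Algebra K[X] F] [IsScalarTower K K[X] F] [IsScalarTower K[X] (RatFunc K) F] in
theorem mem_Linf {u : Basis ι (RatFunc K) F} {f : F} :
    f ∈ Linf K u ↔ ∀ i, u.repr f i ∈ Oinf K := by
  rw [Linf, Submodule.restrictScalars_mem, Basis.mem_span_iff_repr_mem (Oinf K) u f]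
  simp

omit [IsScalarTower K (RatFunc K) F] in
theorem smul_mem_L0 {e : Basis ι (RatFunc K) F} {f : F} (hf : f ∈ L0 K e) (p : K[X]) :
    algebraMap K[X] (RatFunc K) p • f ∈ L0 K e := by
  rw [mem_L0] at hf ⊢
  intro i
  obtain ⟨q, hq⟩ := hf i
  exact ⟨p * q, by rw [map_smul, Finsupp.smul_apply, smul_eq_mul, map_mul, hq]⟩

omit [Algebra K[X] F] [IsScalarTower K K[X] F] [IsScalarTower K[X] (RatFunc K) F] in
theorem smul_mem_Linf {u : Basis ι (RatFunc K) F} {f : F} (hf : f ∈ Linf K u) {c : RatFunc K}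
    (hc : c ∈ Oinf K) : c • f ∈ Linf K u := by
  rw [mem_Linf] at hf ⊢
  intro i
  rw [map_smul, Finsupp.smul_apply, smul_eq_mul]
  exact (Oinf K).mul_mem hc (hf i)

omit [IsScalarTower K (RatFunc K) F] in
theorem basis_mem_L0 [DecidableEq ι] (e : Basis ι (RatFunc K) F) (i : ι) : e i ∈ L0 K e := by
  rw [mem_L0]
  intro j
  rw [Basis.repr_self, Finsupp.single_apply]
  split_ifs
  · exact ⟨1, by simp⟩
  · exact ⟨0, by simp⟩

omit [Algebra K[X] F] [IsScalarTower K K[X] F] [IsScalarTower K[X] (RatFunc K) F] in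
theorem basis_mem_Linf [DecidableEq ι] (u : Basis ι (RatFunc K) F) (i : ι) : u i ∈ Linf K u := by
  rw [mem_Linf]
  intro j
  rw [Basis.repr_self, Finsupp.single_apply]
  split_ifs
  · exact (Oinf K).one_mem
  · exact (Oinf K).zero_mem

/-! ### Scaling a basis -/

/-- The basis `c • e` for a nonzero scalar `c`. -/
def scale (c : RatFunc K) (hc : c ≠ 0) (e : Basis ι (RatFunc K) F) : Basis ι (RatFunc K) F :=
  e.isUnitSMul (fun _ => IsUnit.mk0 c hc)

omit [Algebra K F] [Algebra K[X] F] [IsScalarTower K K[X] F] [IsScalarTower K[X] (RatFunc K) F]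
  [IsScalarTower K (RatFunc K) F] in
theorem scale_apply (c : RatFunc K) (hc : c ≠ 0) (e : Basis ι (RatFunc K) F) (i : ι) :
    scale K c hc e i = c • e i := by
  rw [scale, Basis.isUnitSMul_apply]

omit [Algebra K F] [Algebra K[X] F] [IsScalarTower K K[X] F] [IsScalarTower K[X] (RatFunc K) F]
  [IsScalarTower K (RatFunc K) F] in
theorem scale_repr (c : RatFunc K) (hc : c ≠ 0) (e : Basis ι (RatFunc K) F) (f : F) (i : ι) :
    (scale K c hc e).repr f i = c⁻¹ * e.repr f i := by
  rw [scale, Basis.repr_isUnitSMul, Units.smul_def, smul_eq_mul, Units.val_inv_eq_inv_val,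
    IsUnit.unit_spec]


/-! ### The residue pairing -/

section Pairing

variable [FiniteDimensional (RatFunc K) F] [Algebra.IsSeparable (RatFunc K) F]

/-- The residue pairing `(g, f) ↦ res (trace (g * f))`. -/
def pairing : F →ₗ[K] F →ₗ[K] K :=
  (LinearMap.mul K F).compr₂ ((res K) ∘ₗ ((Algebra.trace (RatFunc K) F).restrictScalars K))

omit [Algebra K[X] F] [IsScalarTower K K[X] F] [IsScalarTower K[X] (RatFunc K) F]
  [FiniteDimensional (RatFunc K) F] [Algebra.IsSeparable (RatFunc K) F] in
theorem pairing_apply (g f : F) :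
    pairing K g f = res K (Algebra.trace (RatFunc K) F (g * f)) := rfl

variable [Fintype ι] [DecidableEq ι]

omit [Algebra K F] [Algebra K[X] F] [IsScalarTower K K[X] F] [IsScalarTower K[X] (RatFunc K) F]
  [IsScalarTower K (RatFunc K) F] [FiniteDimensional (RatFunc K) F]
  [Algebra.IsSeparable (RatFunc K) F] [DecidableEq ι] in
theorem trace_mul_eq_sum (e : Basis ι (RatFunc K) F) (g f : F) :
    Algebra.trace (RatFunc K) F (g * f) =
      ∑ i, e.repr f i * Algebra.trace (RatFunc K) F (g * e i) := by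
  conv_lhs => rw [← e.sum_repr f]
  rw [Finset.mul_sum, map_sum]
  refine Finset.sum_congr rfl fun i _ => ?_
  rw [mul_smul_comm, map_smul, smul_eq_mul]

omit [Algebra K F] [Algebra K[X] F] [IsScalarTower K K[X] F] [IsScalarTower K[X] (RatFunc K) F]
  [IsScalarTower K (RatFunc K) F] in
theorem traceDual_repr (e : Basis ι (RatFunc K) F) (g : F) (i : ι) :
    e.traceDual.repr g i = Algebra.trace (RatFunc K) F (g * e i) := by
  rw [Basis.traceDual_repr_apply, Algebra.traceForm_apply]

omit [Algebra K F] [Algebra K[X] F] [IsScalarTower K K[X] F] [IsScalarTower K[X] (RatFunc K) F]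
  [IsScalarTower K (RatFunc K) F] in
theorem repr_eq_trace (e : Basis ι (RatFunc K) F) (f : F) (i : ι) :
    e.repr f i = Algebra.trace (RatFunc K) F (f * e.traceDual i) := by
  have := traceDual_repr K e.traceDual f i
  rwa [Basis.traceDual_traceDual] at this

omit [IsScalarTower K (RatFunc K) F] in
theorem trace_mem_of_mem_L0 (e : Basis ι (RatFunc K) F) {g f : F}
    (hg : g ∈ L0 K e.traceDual) (hf : f ∈ L0 K e) :
    Algebra.trace (RatFunc K) F (g * f) ∈ Set.range (algebraMap K[X] (RatFunc K)) := by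
  rw [trace_mul_eq_sum K e]
  rw [mem_L0] at hg hf
  change _ ∈ (algebraMap K[X] (RatFunc K)).range
  refine Subring.sum_mem _ fun i _ => Subring.mul_mem _ (hf i) ?_
  rw [← traceDual_repr]
  exact hg i

/-- `L0 e.traceDual` is the annihilator of `L0 e` under the residue pairing. -/
theorem mem_L0_traceDual_iff (e : Basis ι (RatFunc K) F) (g : F) :
    g ∈ L0 K e.traceDual ↔ ∀ f ∈ L0 K e, pairing K g f = 0 := by
  constructor
  · intro hg f hf
    obtain ⟨p, hp⟩ := trace_mem_of_mem_L0 K e hg hf
    rw [pairing_apply, ← hp, res_algebraMap]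
  · intro H
    rw [mem_L0]
    intro i
    rw [traceDual_repr]
    obtain ⟨p, hp⟩ := exists_polynomial_of_res K (Algebra.trace (RatFunc K) F (g * e i)) (by
      intro k
      have h1 : (RatFunc.X : RatFunc K) ^ k • e i ∈ L0 K e := by
        have := smul_mem_L0 K (basis_mem_L0 K e i) (X ^ k)
        simpa using this
      have := H _ h1
      rwa [pairing_apply, mul_smul_comm, map_smul, smul_eq_mul] at this)
    exact ⟨p, hp⟩

/-- The "Serre dual" basis on the chart at infinity: `X⁻² • u.traceDual`. -/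
def twist (u : Basis ι (RatFunc K) F) : Basis ι (RatFunc K) F :=
  scale K ((RatFunc.X)⁻¹ ^ 2) (pow_ne_zero _ (inv_ne_zero RatFunc.X_ne_zero)) u.traceDual

omit [Algebra K[X] F] [IsScalarTower K K[X] F] [IsScalarTower K[X] (RatFunc K) F] in
theorem mem_Linf_twist {u : Basis ι (RatFunc K) F} {g : F} :
    g ∈ Linf K (twist K u) ↔
      ∀ i, RatFunc.X ^ 2 * Algebra.trace (RatFunc K) F (g * u i) ∈ Oinf K := by
  rw [mem_Linf]
  refine forall_congr' fun i => ?_
  rw [twist, scale_repr, traceDual_repr, inv_pow, inv_inv]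

omit [Algebra K[X] F] [IsScalarTower K K[X] F] [IsScalarTower K[X] (RatFunc K) F] in
theorem X_sq_mul_trace_mem_of_mem_Linf (u : Basis ι (RatFunc K) F) {g f : F}
    (hg : g ∈ Linf K (twist K u)) (hf : f ∈ Linf K u) :
    RatFunc.X ^ 2 * Algebra.trace (RatFunc K) F (g * f) ∈ Oinf K := by
  rw [trace_mul_eq_sum K u, Finset.mul_sum]
  rw [mem_Linf_twist] at hg
  rw [mem_Linf] at hf
  refine Subalgebra.sum_mem _ fun i _ => ?_
  rw [mul_left_comm]
  exact (Oinf K).mul_mem (hf i) (hg i)

omit [Algebra K[X] F] [IsScalarTower K K[X] F] [IsScalarTower K[X] (RatFunc K) F] in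
/-- `Linf (twist u)` is the annihilator of `Linf u` under the residue pairing. -/
theorem mem_Linf_twist_iff (u : Basis ι (RatFunc K) F) (g : F) :
    g ∈ Linf K (twist K u) ↔ ∀ f ∈ Linf K u, pairing K g f = 0 := by
  constructor
  · intro hg f hf
    rw [pairing_apply]
    exact res_eq_zero_of_X_sq_mul_mem K _ (X_sq_mul_trace_mem_of_mem_Linf K u hg hf)
  · intro H
    rw [mem_Linf_twist]
    intro i
    apply X_sq_mul_mem_Oinf_of_res
    intro k
    have h1 : ((RatFunc.X : RatFunc K)⁻¹ ^ k) • u i ∈ Linf K u :=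
      smul_mem_Linf K (basis_mem_Linf K u i) (X_inv_pow_mem_Oinf K k)
    have := H _ h1
    rwa [pairing_apply, mul_smul_comm, map_smul, smul_eq_mul] at this

omit [Algebra K[X] F] [IsScalarTower K K[X] F] [IsScalarTower K[X] (RatFunc K) F] in
theorem Linf_twist_twist (u : Basis ι (RatFunc K) F) :
    Linf K (twist K (twist K u)) = Linf K u := by
  ext g
  rw [mem_Linf_twist, mem_Linf]
  refine forall_congr' fun i => ?_
  have : RatFunc.X ^ 2 * Algebra.trace (RatFunc K) F (g * twist K u i) = u.repr g i := by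
    rw [twist, scale_apply, mul_smul_comm, map_smul, smul_eq_mul, ← mul_assoc, ← mul_pow,
      mul_inv_cancel₀ RatFunc.X_ne_zero, one_pow, one_mul, repr_eq_trace]
  rw [this]

omit [Algebra K[X] F] [IsScalarTower K K[X] F] [IsScalarTower K[X] (RatFunc K) F] [Fintype ι]
  [DecidableEq ι] in
/-- The residue pairing is nondegenerate. -/
theorem eq_zero_of_pairing_eq_zero {g : F} (H : ∀ f, pairing K g f = 0) : g = 0 := by
  by_contra hg
  obtain ⟨c, hc⟩ := Algebra.trace_surjective (RatFunc K) F ((RatFunc.X : RatFunc K)⁻¹)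
  have := H (g⁻¹ * c)
  rw [pairing_apply, ← mul_assoc, mul_inv_cancel₀ hg, one_mul, hc, res_apply, expInf_X_inv] at this
  simp at this

end Pairing

end

end Fermat.Agent.S20.RRLite
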